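/-
S25 helper (helper325), block GDC item 7, leaf 0: `Hom` of finite projective modules commutes
with base change (Mathlib has the finite free case only).  Mathlib only.
-/
import Mathlib

set_option autoImplicit false

open TensorProduct

namespace Fermat.Agent.S25.H325

section

variable {R : Type*} [CommRing R] {S : Type*} [CommRing S] [Algebra R S]
  {M : Type*} [AddCommGroup M] [Module R M]
  {N : Type*} [AddCommGroup N] [Module R N]
  {P : Type*} [AddCommGroup P] [Module R P] [Module S P] [IsScalarTower R S P]
  {Q : Type*} [AddCommGroup Q] [Module R Q] [Module S Q] [IsScalarTower R S Q]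

/-- A linear map is a base change map as soon as the induced map from the tensor product is
bijective. -/
theorem isBaseChange_of_bijective_liftBaseChange (f : M →ₗ[R] P)
    (h : Function.Bijective (f.liftBaseChange S)) : IsBaseChange S f :=
  IsBaseChange.of_equiv (LinearEquiv.ofBijective (f.liftBaseChange S) h) (fun x => by simp)

theorem bijective_liftBaseChange_of_isBaseChange {f : M →ₗ[R] P} (h : IsBaseChange S f) :
    Function.Bijective (f.liftBaseChange S) := by
  have : f.liftBaseChange S = h.equiv.toLinearMap := by
    ext x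
    simp
  rw [this]
  exact h.equiv.bijective

/-- **Base change of `Hom` for a finite projective source.**  If `P` is the base change of the
finite projective module `M` and `Q` is the base change of `N`, then `P →ₗ[S] Q` is the base
change of `M →ₗ[R] N` (via `g ↦ ` the unique `S`-linear extension of `β ∘ g`). -/
theorem isBaseChange_linearMapLeftRightHom [Module.Finite R M] [Module.Projective R M]
    {α : M →ₗ[R] P} (j : IsBaseChange S α) {β : N →ₗ[R] Q} (k : IsBaseChange S β) :
    IsBaseChange S (IsBaseChange.linearMapLeftRightHom j β) := by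
  classical
  obtain ⟨n, p, i, -, -, hpi⟩ := Module.Finite.exists_comp_eq_id_of_projective R M
  -- `p : (Fin n → R) → M`, `i : M → (Fin n → R)`, `p ∘ i = id`
  let F := Fin n → R
  have jF : IsBaseChange S (TensorProduct.mk R S F 1) := TensorProduct.isBaseChange R F S
  have hF : IsBaseChange S (IsBaseChange.linearMapLeftRightHom jF β) :=
    IsBaseChange.linearMapLeftRight jF k
  have bF := bijective_liftBaseChange_of_isBaseChange hF
  -- base changes of `i` and `p`
  let iS : P →ₗ[S] S ⊗[R] F := j.lift ((TensorProduct.mk R S F 1) ∘ₗ i)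
  let pS : S ⊗[R] F →ₗ[S] P := jF.lift (α ∘ₗ p)
  have hiS : ∀ m, iS (α m) = (1 : S) ⊗ₜ[R] i m := fun m => by
    simp only [iS, IsBaseChange.lift_eq]
    rfl
  have hpS : ∀ f : F, pS ((1 : S) ⊗ₜ[R] f) = α (p f) := fun f => by
    have := jF.lift_eq (α ∘ₗ p) f
    simpa [pS] using this
  have hpi' : ∀ m, p (i m) = m := fun m => by
    have := congrArg (fun g => g m) hpi
    simpa using this
  have hpiS : ∀ x, pS (iS x) = x := by
    intro x
    have : pS ∘ₗ iS = LinearMap.id := by
      apply j.algHom_ext
      intro m
      simp only [LinearMap.comp_apply, hiS, hpS, hpi', LinearMap.id_apply]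
    exact congrArg (fun g => g x) this
  -- naturality
  have N1 : ∀ g : M →ₗ[R] N, IsBaseChange.linearMapLeftRightHom jF β (g ∘ₗ p) =
      (IsBaseChange.linearMapLeftRightHom j β g) ∘ₗ pS := by
    intro g
    apply jF.algHom_ext
    intro f
    rw [IsBaseChange.linearMapLeftRightHom_comp_apply]
    simp only [LinearMap.comp_apply, TensorProduct.mk_apply, hpS,
      IsBaseChange.linearMapLeftRightHom_comp_apply]
  have N2 : ∀ g : F →ₗ[R] N, IsBaseChange.linearMapLeftRightHom j β (g ∘ₗ i) =
      (IsBaseChange.linearMapLeftRightHom jF β g) ∘ₗ iS := by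
    intro g
    apply j.algHom_ext
    intro m
    rw [IsBaseChange.linearMapLeftRightHom_comp_apply]
    simp only [LinearMap.comp_apply, hiS]
    have := IsBaseChange.linearMapLeftRightHom_comp_apply jF β g (i m)
    simpa using this.symm
  -- the maps induced on `S ⊗ Hom`
  let cp : (M →ₗ[R] N) →ₗ[R] (F →ₗ[R] N) := LinearMap.lcomp R N p
  let ci : (F →ₗ[R] N) →ₗ[R] (M →ₗ[R] N) := LinearMap.lcomp R N i
  have hcicp : ∀ x : S ⊗[R] (M →ₗ[R] N), (ci.baseChange S) ((cp.baseChange S) x) = x := by
    intro x
    induction x using TensorProduct.induction_on with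
    | zero => simp
    | tmul s g =>
      simp only [LinearMap.baseChange_tmul, cp, ci, LinearMap.lcomp_apply']
      congr 1
      ext m
      simp [hpi']
    | add x y hx hy => simp only [map_add, hx, hy]
  set ΨM := (IsBaseChange.linearMapLeftRightHom j β).liftBaseChange S with hΨM
  set ΨF := (IsBaseChange.linearMapLeftRightHom jF β).liftBaseChange S with hΨF
  have E1 : ∀ x : S ⊗[R] (M →ₗ[R] N), ΨF ((cp.baseChange S) x) = (ΨM x) ∘ₗ pS := by
    intro x
    induction x using TensorProduct.induction_on with
    | zero => simp
    | tmul s g =>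
      simp only [LinearMap.baseChange_tmul, hΨF, hΨM, LinearMap.liftBaseChange_tmul, cp,
        LinearMap.lcomp_apply', N1]
      rfl
    | add x y hx hy => simp only [map_add, hx, hy, LinearMap.add_comp]
  have E2 : ∀ z : S ⊗[R] (F →ₗ[R] N), ΨM ((ci.baseChange S) z) = (ΨF z) ∘ₗ iS := by
    intro z
    induction z using TensorProduct.induction_on with
    | zero => simp
    | tmul s g =>
      simp only [LinearMap.baseChange_tmul, hΨF, hΨM, LinearMap.liftBaseChange_tmul, ci,
        LinearMap.lcomp_apply', N2]
      rfl
    | add x y hx hy => simp only [map_add, hx, hy, LinearMap.add_comp]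
  apply isBaseChange_of_bijective_liftBaseChange
  constructor
  · rw [injective_iff_map_eq_zero]
    intro x hx
    have h1 : ΨF ((cp.baseChange S) x) = 0 := by
      rw [E1]
      change (ΨM x) ∘ₗ pS = 0
      rw [show ΨM x = 0 from hx, LinearMap.zero_comp]
    have h2 : (cp.baseChange S) x = 0 := by
      apply bF.1
      rw [h1, map_zero]
    rw [← hcicp x, h2, map_zero]
  · intro y
    obtain ⟨z, hz⟩ := bF.2 (y ∘ₗ pS)
    refine ⟨(ci.baseChange S) z, ?_⟩
    change ΨM ((ci.baseChange S) z) = y
    rw [E2]
    change ΨF z ∘ₗ iS = y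
    rw [show ΨF z = y ∘ₗ pS from hz]
    ext x
    simp [hpiS]

end

end Fermat.Agent.S25.H325
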