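/-
S25 helper (helper325), block GDC item 7: morphisms of gluing data and the internal Hom
gluing datum `homGD G G'` (in particular the dual `dualGD G = homGD G unit`), over the frozen
`DefsAlg.lean`.  Pure algebra.
-/
import Mathlib
import Fermat.Agent.S25.DefsAlg
import Fermat.Agent.S25.H325.HomBaseChange

set_option autoImplicit false

universe u

open TensorProduct

namespace Fermat.Agent.S25.H325

open Fermat.Agent.S25

noncomputable section

variable {A R₀ R₁ R₀₁ : Type u} [CommRing A] [CommRing R₀] [CommRing R₁]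
    [CommRing R₀₁] [Algebra A R₀] [Algebra A R₁] [Algebra A R₀₁] [Algebra R₀ R₀₁]
    [Algebra R₁ R₀₁] [IsScalarTower A R₀ R₀₁] [IsScalarTower A R₁ R₀₁]

/-- A morphism of gluing data: linear maps on the two charts and on the overlap, compatible
with the restriction maps. -/
structure GDHom (G G' : GlueDatum A R₀ R₁ R₀₁) where
  f₀ : G.N₀ →ₗ[R₀] G'.N₀
  f₁ : G.N₁ →ₗ[R₁] G'.N₁
  f₀₁ : G.N₀₁ →ₗ[R₀₁] G'.N₀₁
  comm₀ : ∀ s, f₀₁ (G.r₀ s) = G'.r₀ (f₀ s)
  comm₁ : ∀ s, f₀₁ (G.r₁ s) = G'.r₁ (f₁ s)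

/-- The internal Hom of two gluing data: `(Hom(N₀, N₀'), Hom(N₁, N₁'), Hom(N₀₁, N₀₁'))` with
restriction maps "extend linearly to the overlap". -/
def homGD (G G' : GlueDatum A R₀ R₁ R₀₁) : GlueDatum A R₀ R₁ R₀₁ :=
  haveI := G.invertible₀
  haveI := G.invertible₁
  haveI := G'.invertible₀
  haveI := G'.invertible₁
  { N₀ := G.N₀ →ₗ[R₀] G'.N₀
    N₁ := G.N₁ →ₗ[R₁] G'.N₁
    N₀₁ := G.N₀₁ →ₗ[R₀₁] G'.N₀₁
    r₀ := IsBaseChange.linearMapLeftRightHom G.isBaseChange₀ G'.r₀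
    r₁ := IsBaseChange.linearMapLeftRightHom G.isBaseChange₁ G'.r₁
    isBaseChange₀ := isBaseChange_linearMapLeftRightHom G.isBaseChange₀ G'.isBaseChange₀
    isBaseChange₁ := isBaseChange_linearMapLeftRightHom G.isBaseChange₁ G'.isBaseChange₁
    invertible₀ := Module.Invertible.congr (dualTensorHomEquiv R₀ G.N₀ G'.N₀)
    invertible₁ := Module.Invertible.congr (dualTensorHomEquiv R₁ G.N₁ G'.N₁) }

end

end Fermat.Agent.S25.H325
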