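/-
S25 helper (helper325), block GDC item 7, part 2: calculus of morphisms of gluing data.
`GDHom` = `H0 (homGD)`, identities/compositions, isomorphisms from bijective (or, for
invertible data, surjective) morphisms.  Over the frozen `DefsAlg.lean`.  Pure algebra.
-/
import Mathlib
import Fermat.Agent.S25.DefsAlg
import Fermat.Agent.S25.H325.GDCHom

set_option autoImplicit false

universe u

open TensorProduct

namespace Fermat.Agent.S25.H325

open Fermat.Agent.S25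

noncomputable section

variable {A R₀ R₁ R₀₁ : Type u} [CommRing A] [CommRing R₀] [CommRing R₁]
    [CommRing R₀₁] [Algebra A R₀] [Algebra A R₁] [Algebra A R₀₁] [Algebra R₀ R₀₁]
    [Algebra R₁ R₀₁] [IsScalarTower A R₀ R₀₁] [IsScalarTower A R₁ R₀₁]

variable {G G' G'' : GlueDatum A R₀ R₁ R₀₁}

/-! ### Basic calculus of `GDHom` -/

@[ext] theorem GDHom.ext' {f g : GDHom G G'} (h₀ : f.f₀ = g.f₀) (h₁ : f.f₁ = g.f₁) : f = g := by
  have h₀₁ : f.f₀₁ = g.f₀₁ := by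
    apply G.isBaseChange₀.algHom_ext
    intro s
    rw [f.comm₀, g.comm₀, h₀]
  cases f; cases g
  simp only at h₀ h₁ h₀₁
  subst h₀ h₁ h₀₁
  rfl

/-- The identity morphism. -/
def GDHom.id (G : GlueDatum A R₀ R₁ R₀₁) : GDHom G G where
  f₀ := LinearMap.id
  f₁ := LinearMap.id
  f₀₁ := LinearMap.id
  comm₀ _ := rfl
  comm₁ _ := rfl

/-- Composition of morphisms. -/
def GDHom.comp (g : GDHom G' G'') (f : GDHom G G') : GDHom G G'' where
  f₀ := g.f₀ ∘ₗ f.f₀
  f₁ := g.f₁ ∘ₗ f.f₁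
  f₀₁ := g.f₀₁ ∘ₗ f.f₀₁
  comm₀ s := by simp only [LinearMap.comp_apply, f.comm₀, g.comm₀]
  comm₁ s := by simp only [LinearMap.comp_apply, f.comm₁, g.comm₁]

/-- The morphism underlying an isomorphism of gluing data. -/
def GDHom.ofIso (e : GlueDatum.Iso G G') : GDHom G G' where
  f₀ := e.e₀.toLinearMap
  f₁ := e.e₁.toLinearMap
  f₀₁ := e.e₀₁.toLinearMap
  comm₀ := e.comm₀
  comm₁ := e.comm₁

/-- A morphism of gluing data is determined by its two chart components; conversely two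
chart components whose extensions to the overlap agree define a morphism. -/
def GDHom.mk' (f₀ : G.N₀ →ₗ[R₀] G'.N₀) (f₁ : G.N₁ →ₗ[R₁] G'.N₁)
    (h : G.isBaseChange₀.lift (G'.r₀ ∘ₗ f₀) = G.isBaseChange₁.lift (G'.r₁ ∘ₗ f₁)) :
    GDHom G G' where
  f₀ := f₀
  f₁ := f₁
  f₀₁ := G.isBaseChange₀.lift (G'.r₀ ∘ₗ f₀)
  comm₀ s := by rw [IsBaseChange.lift_eq]; rfl
  comm₁ s := by rw [h, IsBaseChange.lift_eq]; rfl

theorem GDHom.f₀₁_eq_lift₀ (f : GDHom G G') :
    f.f₀₁ = G.isBaseChange₀.lift (G'.r₀ ∘ₗ f.f₀) := by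
  apply G.isBaseChange₀.algHom_ext
  intro s
  rw [f.comm₀, IsBaseChange.lift_eq]
  rfl

theorem GDHom.f₀₁_eq_lift₁ (f : GDHom G G') :
    f.f₀₁ = G.isBaseChange₁.lift (G'.r₁ ∘ₗ f.f₁) := by
  apply G.isBaseChange₁.algHom_ext
  intro s
  rw [f.comm₁, IsBaseChange.lift_eq]
  rfl

/-! ### Isomorphisms from bijective morphisms -/

/-- The extension to the overlap of a bijective chart component is bijective. -/
theorem GDHom.bijective_f₀₁ (f : GDHom G G') (h₀ : Function.Bijective f.f₀) :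
    Function.Bijective f.f₀₁ := by
  let e₀ : G.N₀ ≃ₗ[R₀] G'.N₀ := LinearEquiv.ofBijective f.f₀ h₀
  let g : G'.N₀₁ →ₗ[R₀₁] G.N₀₁ := G'.isBaseChange₀.lift (G.r₀ ∘ₗ e₀.symm.toLinearMap)
  have hg : ∀ s', g (G'.r₀ s') = G.r₀ (e₀.symm s') := fun s' => by
    simp only [g, IsBaseChange.lift_eq]
    rfl
  have h1 : g ∘ₗ f.f₀₁ = LinearMap.id := by
    apply G.isBaseChange₀.algHom_ext
    intro s
    simp only [LinearMap.comp_apply, f.comm₀, hg, LinearMap.id_apply]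
    congr 1
    exact e₀.symm_apply_apply s
  have h2 : f.f₀₁ ∘ₗ g = LinearMap.id := by
    apply G'.isBaseChange₀.algHom_ext
    intro s'
    simp only [LinearMap.comp_apply, f.comm₀, hg, LinearMap.id_apply]
    congr 1
    exact e₀.apply_symm_apply s'
  refine ⟨fun x y hxy => ?_, fun y => ⟨g y, congrArg (fun φ => φ y) h2⟩⟩
  have := congrArg g hxy
  have hx := congrArg (fun φ => φ x) h1
  have hy := congrArg (fun φ => φ y) h1
  simp only [LinearMap.comp_apply, LinearMap.id_apply] at hx hy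
  rw [← hx, ← hy]
  exact this

/-- A morphism of gluing data with bijective chart components is an isomorphism. -/
def isoOfBijective (f : GDHom G G') (h₀ : Function.Bijective f.f₀)
    (h₁ : Function.Bijective f.f₁) : GlueDatum.Iso G G' where
  e₀ := LinearEquiv.ofBijective f.f₀ h₀
  e₁ := LinearEquiv.ofBijective f.f₁ h₁
  e₀₁ := LinearEquiv.ofBijective f.f₀₁ (f.bijective_f₀₁ h₀)
  comm₀ := f.comm₀
  comm₁ := f.comm₁

theorem isIso_of_bijective (f : GDHom G G') (h₀ : Function.Bijective f.f₀)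
    (h₁ : Function.Bijective f.f₁) : G.IsIso G' := ⟨isoOfBijective f h₀ h₁⟩

/-- A morphism of gluing data (of invertible modules) with surjective chart components is an
isomorphism. -/
theorem isIso_of_surjective (f : GDHom G G') (h₀ : Function.Surjective f.f₀)
    (h₁ : Function.Surjective f.f₁) : G.IsIso G' := by
  haveI := G.invertible₀
  haveI := G.invertible₁
  haveI := G'.invertible₀
  haveI := G'.invertible₁
  exact isIso_of_bijective f (Module.Invertible.bijective_of_surjective h₀)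
    (Module.Invertible.bijective_of_surjective h₁)

/-! ### `IsIso` is an equivalence relation -/

theorem isIso_refl (G : GlueDatum A R₀ R₁ R₀₁) : G.IsIso G :=
  ⟨{ e₀ := LinearEquiv.refl _ _, e₁ := LinearEquiv.refl _ _, e₀₁ := LinearEquiv.refl _ _,
     comm₀ := fun _ => rfl, comm₁ := fun _ => rfl }⟩

theorem isIso_symm (h : G.IsIso G') : G'.IsIso G := by
  obtain ⟨e⟩ := h
  refine ⟨{ e₀ := e.e₀.symm, e₁ := e.e₁.symm, e₀₁ := e.e₀₁.symm, comm₀ := ?_, comm₁ := ?_ }⟩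
  · intro s
    rw [LinearEquiv.symm_apply_eq, e.comm₀, LinearEquiv.apply_symm_apply]
  · intro s
    rw [LinearEquiv.symm_apply_eq, e.comm₁, LinearEquiv.apply_symm_apply]

theorem isIso_trans (h : G.IsIso G') (h' : G'.IsIso G'') : G.IsIso G'' := by
  obtain ⟨e⟩ := h
  obtain ⟨e'⟩ := h'
  refine ⟨⟨e.e₀ ≪≫ₗ e'.e₀, e.e₁ ≪≫ₗ e'.e₁, e.e₀₁ ≪≫ₗ e'.e₀₁, ?_, ?_⟩⟩
  · intro s
    simp only [LinearEquiv.trans_apply, e.comm₀, e'.comm₀]
  · intro s
    simp only [LinearEquiv.trans_apply, e.comm₁, e'.comm₁]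

/-! ### `H⁰` of the internal Hom = morphisms -/

/-- The extension of a linear map on the chart `0` to the overlap. -/
def ext₀ (G G' : GlueDatum A R₀ R₁ R₀₁) (f : G.N₀ →ₗ[R₀] G'.N₀) : G.N₀₁ →ₗ[R₀₁] G'.N₀₁ :=
  IsBaseChange.linearMapLeftRightHom G.isBaseChange₀ G'.r₀ f

/-- The extension of a linear map on the chart `1` to the overlap. -/
def ext₁ (G G' : GlueDatum A R₀ R₁ R₀₁) (f : G.N₁ →ₗ[R₁] G'.N₁) : G.N₀₁ →ₗ[R₀₁] G'.N₀₁ :=
  IsBaseChange.linearMapLeftRightHom G.isBaseChange₁ G'.r₁ f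

theorem homGD_r₀_eq (f : G.N₀ →ₗ[R₀] G'.N₀) : (homGD G G').r₀ f = ext₀ G G' f := rfl

theorem homGD_r₁_eq (f : G.N₁ →ₗ[R₁] G'.N₁) : (homGD G G').r₁ f = ext₁ G G' f := rfl

@[simp] theorem ext₀_apply (f : G.N₀ →ₗ[R₀] G'.N₀) (s : G.N₀) :
    ext₀ G G' f (G.r₀ s) = G'.r₀ (f s) :=
  IsBaseChange.linearMapLeftRightHom_comp_apply G.isBaseChange₀ G'.r₀ f s

@[simp] theorem ext₁_apply (f : G.N₁ →ₗ[R₁] G'.N₁) (s : G.N₁) :
    ext₁ G G' f (G.r₁ s) = G'.r₁ (f s) :=
  IsBaseChange.linearMapLeftRightHom_comp_apply G.isBaseChange₁ G'.r₁ f s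

theorem GDHom.ext₀_eq (f : GDHom G G') : ext₀ G G' f.f₀ = f.f₀₁ := by
  apply G.isBaseChange₀.algHom_ext
  intro s
  rw [ext₀_apply, f.comm₀]

theorem GDHom.ext₁_eq (f : GDHom G G') : ext₁ G G' f.f₁ = f.f₀₁ := by
  apply G.isBaseChange₁.algHom_ext
  intro s
  rw [ext₁_apply, f.comm₁]

theorem mem_H0_homGD_iff (f₀ : G.N₀ →ₗ[R₀] G'.N₀) (f₁ : G.N₁ →ₗ[R₁] G'.N₁) :
    ((f₀, f₁) : (homGD G G').N₀ × (homGD G G').N₁) ∈ (homGD G G').H0 ↔
      ext₀ G G' f₀ = ext₁ G G' f₁ := by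
  rw [LinearMap.mem_ker]
  simp only [GlueDatum.cech, LinearMap.coprod_apply, LinearMap.coe_restrictScalars,
    LinearMap.neg_apply]
  rw [← sub_eq_add_neg, sub_eq_zero]
  rfl

/-- A global section of the internal Hom is a morphism of gluing data. -/
def GDHom.ofH0 (x : (homGD G G').H0) : GDHom G G' where
  f₀ := x.1.1
  f₁ := x.1.2
  f₀₁ := ext₀ G G' x.1.1
  comm₀ s := ext₀_apply _ s
  comm₁ s := by
    have h := (mem_H0_homGD_iff (G := G) (G' := G') x.1.1 x.1.2).mp x.2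
    rw [h]
    exact ext₁_apply _ s

/-- A morphism of gluing data is a global section of the internal Hom. -/
def GDHom.toH0 (f : GDHom G G') : (homGD G G').H0 :=
  ⟨(f.f₀, f.f₁), by
    rw [mem_H0_homGD_iff, f.ext₀_eq, f.ext₁_eq]⟩

/-- **`H⁰(Hom(G, G'))` = morphisms `G → G'`.** -/
def gdHomEquivH0 : GDHom G G' ≃ (homGD G G').H0 where
  toFun := GDHom.toH0
  invFun := GDHom.ofH0
  left_inv f := by
    apply GDHom.ext' <;> rfl
  right_inv x := by
    apply Subtype.ext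
    rfl

end

end Fermat.Agent.S25.H325
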