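/-
S25 helper (helper325), block GDC item 7: tensor product of gluing data, over the frozen
`DefsAlg.lean`.  Pure algebra.
-/
import Mathlib
import Fermat.Agent.S25.DefsAlg
import Fermat.Agent.S25.H325.HomBaseChange

set_option autoImplicit false

universe u

open TensorProduct

namespace Fermat.Agent.S25.H325

open Fermat.Agent.S25

noncomputable section

section TensorBaseChange

variable {R S : Type*} [CommRing R] [CommRing S] [Algebra R S]
  {M : Type*} [AddCommGroup M] [Module R M]
  {M' : Type*} [AddCommGroup M'] [Module R M']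
  {P : Type*} [AddCommGroup P] [Module R P] [Module S P] [IsScalarTower R S P]
  {P' : Type*} [AddCommGroup P'] [Module R P'] [Module S P'] [IsScalarTower R S P']

/-- The map `M ⊗[R] M' → P ⊗[S] P'`, `m ⊗ m' ↦ α m ⊗ α' m'`. -/
def tensorRes (α : M →ₗ[R] P) (α' : M' →ₗ[R] P') : M ⊗[R] M' →ₗ[R] P ⊗[S] P' :=
  TensorProduct.lift
    (LinearMap.mk₂ R (fun m m' => α m ⊗ₜ[S] α' m')
      (fun m₁ m₂ m' => by simp only [map_add, TensorProduct.add_tmul])
      (fun c m m' => by simp only [map_smul, TensorProduct.smul_tmul'])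
      (fun m m₁' m₂' => by simp only [map_add, TensorProduct.tmul_add])
      (fun c m m' => by
        simp only [map_smul]
        rw [← algebraMap_smul S c (α' m'), TensorProduct.tmul_smul, algebraMap_smul]))

@[simp] theorem tensorRes_tmul (α : M →ₗ[R] P) (α' : M' →ₗ[R] P') (m : M) (m' : M') :
    tensorRes (S := S) α α' (m ⊗ₜ[R] m') = α m ⊗ₜ[S] α' m' := by
  simp [tensorRes]

/-- The tensor product of two base changes is a base change. -/
theorem isBaseChange_tensorRes {α : M →ₗ[R] P} (j : IsBaseChange S α) {α' : M' →ₗ[R] P'}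
    (j' : IsBaseChange S α') : IsBaseChange S (tensorRes (S := S) α α') := by
  refine IsBaseChange.of_equiv
    ((AlgebraTensorModule.distribBaseChange R S M M') ≪≫ₗ
      (TensorProduct.congr j.equiv j'.equiv)) ?_
  intro x
  induction x using TensorProduct.induction_on with
  | zero => simp
  | tmul m m' =>
    simp [AlgebraTensorModule.distribBaseChange, IsBaseChange.equiv_tmul]
  | add x y hx hy =>
    rw [TensorProduct.tmul_add, map_add, hx, hy, map_add]

end TensorBaseChange

variable {A R₀ R₁ R₀₁ : Type u} [CommRing A] [CommRing R₀] [CommRing R₁]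
    [CommRing R₀₁] [Algebra A R₀] [Algebra A R₁] [Algebra A R₀₁] [Algebra R₀ R₀₁]
    [Algebra R₁ R₀₁] [IsScalarTower A R₀ R₀₁] [IsScalarTower A R₁ R₀₁]

/-- The tensor product of two gluing data. -/
def tensorGD (G G' : GlueDatum A R₀ R₁ R₀₁) : GlueDatum A R₀ R₁ R₀₁ :=
  haveI := G.invertible₀
  haveI := G.invertible₁
  haveI := G'.invertible₀
  haveI := G'.invertible₁
  { N₀ := G.N₀ ⊗[R₀] G'.N₀
    N₁ := G.N₁ ⊗[R₁] G'.N₁
    N₀₁ := G.N₀₁ ⊗[R₀₁] G'.N₀₁
    r₀ := tensorRes (S := R₀₁) G.r₀ G'.r₀
    r₁ := tensorRes (S := R₀₁) G.r₁ G'.r₁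
    isBaseChange₀ := isBaseChange_tensorRes G.isBaseChange₀ G'.isBaseChange₀
    isBaseChange₁ := isBaseChange_tensorRes G.isBaseChange₁ G'.isBaseChange₁
    invertible₀ := inferInstance
    invertible₁ := inferInstance }

end

end Fermat.Agent.S25.H325
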