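/-
S25 helper (helper325), block GDC item 7, part 4: semilinear base change of tensor products
and of `Hom` (frozen `IsSemilinearBaseChange` of `DefsAlg.lean`).  Pure algebra.
-/
import Mathlib
import Fermat.Agent.S25.DefsAlg
import Fermat.Agent.S25.H371.SemilinearBC
import Fermat.Agent.S25.H325.HomBaseChange
import Fermat.Agent.S25.H325.GDCTensor

set_option autoImplicit false
set_option linter.style.haveILetI false

universe u

open TensorProduct

namespace Fermat.Agent.S25.H325

open Fermat.Agent.S25

noncomputable section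

variable {R R' : Type u} [CommRing R] [CommRing R'] (ρ : R →+* R')
  {N N' M M' : Type u} [AddCommGroup N] [Module R N] [AddCommGroup N'] [Module R' N']
  [AddCommGroup M] [Module R M] [AddCommGroup M'] [Module R' M']

/-- The linear map underlying a semilinear map, for the module structure on the target
obtained by restriction of scalars along `ρ`. -/
def semiToLin (b : N →ₛₗ[ρ] N') :
    letI : Module R N' := Module.compHom N' ρ
    N →ₗ[R] N' :=
  letI : Module R N' := Module.compHom N' ρ
  { toFun := fun n => b n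
    map_add' := fun m n => b.map_add m n
    map_smul' := fun r n => LinearMap.map_smulₛₗ b r n }

/-- The tensor product of two `ρ`-semilinear maps. -/
def semiTensor (b : N →ₛₗ[ρ] N') (c : M →ₛₗ[ρ] M') : N ⊗[R] M →ₛₗ[ρ] N' ⊗[R'] M' :=
  letI : Algebra R R' := ρ.toAlgebra
  letI : Module R N' := Module.compHom N' ρ
  letI : Module R M' := Module.compHom M' ρ
  haveI : IsScalarTower R R' N' := ⟨fun r r' n => by
    change (ρ r * r') • n = ρ r • (r' • n); rw [mul_smul]⟩
  haveI : IsScalarTower R R' M' := ⟨fun r r' n => by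
    change (ρ r * r') • n = ρ r • (r' • n); rw [mul_smul]⟩
  { toFun := fun z => tensorRes (S := R') (semiToLin ρ b) (semiToLin ρ c) z
    map_add' := fun x y => map_add _ x y
    map_smul' := fun r z => by
      rw [map_smul]
      change r • _ = (algebraMap R R' r) • _
      rw [algebraMap_smul] }

@[simp] theorem semiTensor_tmul (b : N →ₛₗ[ρ] N') (c : M →ₛₗ[ρ] M') (n : N) (m : M) :
    semiTensor ρ b c (n ⊗ₜ[R] m) = b n ⊗ₜ[R'] c m := by
  letI : Algebra R R' := ρ.toAlgebra
  letI : Module R N' := Module.compHom N' ρ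
  letI : Module R M' := Module.compHom M' ρ
  haveI : IsScalarTower R R' N' := ⟨fun r r' n => by
    change (ρ r * r') • n = ρ r • (r' • n); rw [mul_smul]⟩
  haveI : IsScalarTower R R' M' := ⟨fun r r' n => by
    change (ρ r * r') • n = ρ r • (r' • n); rw [mul_smul]⟩
  exact tensorRes_tmul (S := R') (semiToLin ρ b) (semiToLin ρ c) n m

/-- The tensor product of two semilinear base changes is a semilinear base change. -/
theorem isSemilinearBaseChange_semiTensor {b : N →ₛₗ[ρ] N'} {c : M →ₛₗ[ρ] M'}
    (hb : IsSemilinearBaseChange ρ b) (hc : IsSemilinearBaseChange ρ c) :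
    IsSemilinearBaseChange ρ (semiTensor ρ b c) := by
  letI : Algebra R R' := ρ.toAlgebra
  letI : Module R N' := Module.compHom N' ρ
  letI : Module R M' := Module.compHom M' ρ
  haveI : IsScalarTower R R' N' := ⟨fun r r' n => by
    change (ρ r * r') • n = ρ r • (r' • n); rw [mul_smul]⟩
  haveI : IsScalarTower R R' M' := ⟨fun r r' n => by
    change (ρ r * r') • n = ρ r • (r' • n); rw [mul_smul]⟩
  have hb' : IsBaseChange R' (semiToLin ρ b) := hb
  have hc' : IsBaseChange R' (semiToLin ρ c) := hc
  exact H371.isSemilinearBaseChange_of_isBaseChange ρ (fun _ => rfl) (semiTensor ρ b c)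
    (tensorRes (S := R') (semiToLin ρ b) (semiToLin ρ c)) (fun _ => rfl)
    (isBaseChange_tensorRes hb' hc')

/-- The base change of `Hom`: `f ↦` the unique `R'`-linear `f'` with `f' ∘ b = c ∘ f`. -/
def semiHom {b : N →ₛₗ[ρ] N'} (hb : IsSemilinearBaseChange ρ b) (c : M →ₛₗ[ρ] M') :
    (N →ₗ[R] M) →ₛₗ[ρ] (N' →ₗ[R'] M') :=
  letI : Algebra R R' := ρ.toAlgebra
  letI : Module R N' := Module.compHom N' ρ
  letI : Module R M' := Module.compHom M' ρ
  haveI : IsScalarTower R R' N' := ⟨fun r r' n => by
    change (ρ r * r') • n = ρ r • (r' • n); rw [mul_smul]⟩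
  haveI : IsScalarTower R R' M' := ⟨fun r r' n => by
    change (ρ r * r') • n = ρ r • (r' • n); rw [mul_smul]⟩
  have hb' : IsBaseChange R' (semiToLin ρ b) := hb
  { toFun := fun f => IsBaseChange.linearMapLeftRightHom hb' (semiToLin ρ c) f
    map_add' := fun x y => map_add _ x y
    map_smul' := fun r f => by
      rw [map_smul]
      change r • _ = (algebraMap R R' r) • _
      rw [algebraMap_smul] }

@[simp] theorem semiHom_apply {b : N →ₛₗ[ρ] N'} (hb : IsSemilinearBaseChange ρ b)
    (c : M →ₛₗ[ρ] M') (f : N →ₗ[R] M) (n : N) :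
    semiHom ρ hb c f (b n) = c (f n) := by
  letI : Algebra R R' := ρ.toAlgebra
  letI : Module R N' := Module.compHom N' ρ
  letI : Module R M' := Module.compHom M' ρ
  haveI : IsScalarTower R R' N' := ⟨fun r r' n => by
    change (ρ r * r') • n = ρ r • (r' • n); rw [mul_smul]⟩
  haveI : IsScalarTower R R' M' := ⟨fun r r' n => by
    change (ρ r * r') • n = ρ r • (r' • n); rw [mul_smul]⟩
  have hb' : IsBaseChange R' (semiToLin ρ b) := hb
  exact IsBaseChange.linearMapLeftRightHom_comp_apply hb' (semiToLin ρ c) f n

/-- `Hom` of a finite projective module commutes with semilinear base change. -/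
theorem isSemilinearBaseChange_semiHom [Module.Finite R N] [Module.Projective R N]
    {b : N →ₛₗ[ρ] N'} (hb : IsSemilinearBaseChange ρ b) {c : M →ₛₗ[ρ] M'}
    (hc : IsSemilinearBaseChange ρ c) : IsSemilinearBaseChange ρ (semiHom ρ hb c) := by
  letI : Algebra R R' := ρ.toAlgebra
  letI : Module R N' := Module.compHom N' ρ
  letI : Module R M' := Module.compHom M' ρ
  haveI : IsScalarTower R R' N' := ⟨fun r r' n => by
    change (ρ r * r') • n = ρ r • (r' • n); rw [mul_smul]⟩
  haveI : IsScalarTower R R' M' := ⟨fun r r' n => by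
    change (ρ r * r') • n = ρ r • (r' • n); rw [mul_smul]⟩
  have hb' : IsBaseChange R' (semiToLin ρ b) := hb
  have hc' : IsBaseChange R' (semiToLin ρ c) := hc
  exact H371.isSemilinearBaseChange_of_isBaseChange ρ (fun _ => rfl) (semiHom ρ hb c)
    (IsBaseChange.linearMapLeftRightHom hb' (semiToLin ρ c)) (fun _ => rfl)
    (isBaseChange_linearMapLeftRightHom hb' hc')

/-- A ring homomorphism is a semilinear base change of the free modules of rank one. -/
theorem isSemilinearBaseChange_ringHom :
    IsSemilinearBaseChange ρ (ρ.toSemilinearMap : R →ₛₗ[ρ] R') := by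
  letI : Algebra R R' := ρ.toAlgebra
  exact H371.isSemilinearBaseChange_of_isBaseChange ρ (fun _ => rfl) _
    (Algebra.linearMap R R') (fun _ => rfl) (IsBaseChange.linearMap R R')

end

end Fermat.Agent.S25.H325
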