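/-
S25 helper (helper325), block GDC item 7, part 5: tensor product, internal Hom, dual and unit
of gluing data are compatible with base change (`GlueDatum.IsBC`, `CurveGD.IsBC` of the frozen
`DefsAlg.lean`).  Pure algebra.
-/
import Mathlib
import Fermat.Agent.S25.DefsAlg
import Fermat.Agent.S25.H371.SemilinearBC
import Fermat.Agent.S25.H325.GDCHom
import Fermat.Agent.S25.H325.GDCTensor
import Fermat.Agent.S25.H325.GDCMor
import Fermat.Agent.S25.H325.GDCIso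
import Fermat.Agent.S25.H325.GDCSemiOps

set_option autoImplicit false
set_option linter.style.haveILetI false

universe u

open TensorProduct

namespace Fermat.Agent.S25.H325

open Fermat.Agent.S25

noncomputable section

section Ext

variable {R R' : Type u} [CommRing R] [CommRing R'] {ρ : R →+* R'}
  {N N' : Type u} [AddCommGroup N] [Module R N] [AddCommGroup N'] [Module R' N']

/-- Two linear maps out of a semilinear base change agree as soon as they agree on the image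
of the base change map. -/
theorem semilinear_ext {b : N →ₛₗ[ρ] N'} (hb : IsSemilinearBaseChange ρ b) {Q : Type*}
    [AddCommGroup Q] [Module R' Q] (g₁ g₂ : N' →ₗ[R'] Q) (h : ∀ n, g₁ (b n) = g₂ (b n)) :
    g₁ = g₂ := by
  letI : Algebra R R' := ρ.toAlgebra
  letI : Module R N' := Module.compHom N' ρ
  haveI : IsScalarTower R R' N' := ⟨fun r r' n => by
    change (ρ r * r') • n = ρ r • (r' • n); rw [mul_smul]⟩
  have hb' : IsBaseChange R' (semiToLin ρ b) := hb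
  exact hb'.algHom_ext g₁ g₂ h

end Ext

variable {A R₀ R₁ R₀₁ : Type u} [CommRing A] [CommRing R₀] [CommRing R₁]
    [CommRing R₀₁] [Algebra A R₀] [Algebra A R₁] [Algebra A R₀₁] [Algebra R₀ R₀₁]
    [Algebra R₁ R₀₁] [IsScalarTower A R₀ R₀₁] [IsScalarTower A R₁ R₀₁]
    {A' R₀' R₁' R₀₁' : Type u} [CommRing A'] [CommRing R₀'] [CommRing R₁']
    [CommRing R₀₁'] [Algebra A' R₀'] [Algebra A' R₁'] [Algebra A' R₀₁'] [Algebra R₀' R₀₁']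
    [Algebra R₁' R₀₁'] [IsScalarTower A' R₀' R₀₁'] [IsScalarTower A' R₁' R₀₁']
    {ρ₀ : R₀ →+* R₀'} {ρ₁ : R₁ →+* R₁'} {ρ₀₁ : R₀₁ →+* R₀₁'}

/-! ### Tensor product -/

/-- Base change maps for a tensor product of gluing data. -/
def bcTensor {G₁ G₂ : GlueDatum A R₀ R₁ R₀₁} {G₁' G₂' : GlueDatum A' R₀' R₁' R₀₁'}
    (B : GlueDatum.BaseChangeMaps ρ₀ ρ₁ ρ₀₁ G₁ G₁')
    (C : GlueDatum.BaseChangeMaps ρ₀ ρ₁ ρ₀₁ G₂ G₂') :
    GlueDatum.BaseChangeMaps ρ₀ ρ₁ ρ₀₁ (tensorGD G₁ G₂) (tensorGD G₁' G₂') where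
  b₀ := semiTensor ρ₀ B.b₀ C.b₀
  b₁ := semiTensor ρ₁ B.b₁ C.b₁
  b₀₁ := semiTensor ρ₀₁ B.b₀₁ C.b₀₁
  comm₀ s := by
    change semiTensor ρ₀₁ B.b₀₁ C.b₀₁ (tensorRes (S := R₀₁) G₁.r₀ G₂.r₀ s) =
      tensorRes (S := R₀₁') G₁'.r₀ G₂'.r₀ (semiTensor ρ₀ B.b₀ C.b₀ s)
    induction s using TensorProduct.induction_on with
    | zero => simp
    | tmul n m =>
      rw [tensorRes_tmul, semiTensor_tmul, semiTensor_tmul, tensorRes_tmul, B.comm₀, C.comm₀]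
    | add x y hx hy => simp only [map_add, hx, hy]
  comm₁ s := by
    change semiTensor ρ₀₁ B.b₀₁ C.b₀₁ (tensorRes (S := R₀₁) G₁.r₁ G₂.r₁ s) =
      tensorRes (S := R₀₁') G₁'.r₁ G₂'.r₁ (semiTensor ρ₁ B.b₁ C.b₁ s)
    induction s using TensorProduct.induction_on with
    | zero => simp
    | tmul n m =>
      rw [tensorRes_tmul, semiTensor_tmul, semiTensor_tmul, tensorRes_tmul, B.comm₁, C.comm₁]
    | add x y hx hy => simp only [map_add, hx, hy]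
  isBaseChange₀ := isSemilinearBaseChange_semiTensor ρ₀ B.isBaseChange₀ C.isBaseChange₀
  isBaseChange₁ := isSemilinearBaseChange_semiTensor ρ₁ B.isBaseChange₁ C.isBaseChange₁
  isBaseChange₀₁ := isSemilinearBaseChange_semiTensor ρ₀₁ B.isBaseChange₀₁ C.isBaseChange₀₁

/-- **Tensor products commute with base change.** -/
theorem isBC_tensorGD {G₁ G₂ : GlueDatum A R₀ R₁ R₀₁} {G₁' G₂' : GlueDatum A' R₀' R₁' R₀₁'}
    (h₁ : GlueDatum.IsBC ρ₀ ρ₁ ρ₀₁ G₁ G₁') (h₂ : GlueDatum.IsBC ρ₀ ρ₁ ρ₀₁ G₂ G₂') :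
    GlueDatum.IsBC ρ₀ ρ₁ ρ₀₁ (tensorGD G₁ G₂) (tensorGD G₁' G₂') := by
  obtain ⟨B⟩ := h₁
  obtain ⟨C⟩ := h₂
  exact ⟨bcTensor B C⟩

/-! ### Internal Hom -/

/-- Base change maps for the internal Hom of gluing data. -/
def bcHom {G₁ G₂ : GlueDatum A R₀ R₁ R₀₁} {G₁' G₂' : GlueDatum A' R₀' R₁' R₀₁'}
    (B : GlueDatum.BaseChangeMaps ρ₀ ρ₁ ρ₀₁ G₁ G₁')
    (C : GlueDatum.BaseChangeMaps ρ₀ ρ₁ ρ₀₁ G₂ G₂') :
    GlueDatum.BaseChangeMaps ρ₀ ρ₁ ρ₀₁ (homGD G₁ G₂) (homGD G₁' G₂') :=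
  haveI := G₁.invertible₀
  haveI := G₁.invertible₁
  { b₀ := semiHom ρ₀ B.isBaseChange₀ C.b₀
    b₁ := semiHom ρ₁ B.isBaseChange₁ C.b₁
    b₀₁ := semiHom ρ₀₁ B.isBaseChange₀₁ C.b₀₁
    comm₀ := fun (f : G₁.N₀ →ₗ[R₀] G₂.N₀) => by
      change semiHom ρ₀₁ B.isBaseChange₀₁ C.b₀₁ (ext₀ G₁ G₂ f) =
        ext₀ G₁' G₂' (semiHom ρ₀ B.isBaseChange₀ C.b₀ f)
      apply G₁'.isBaseChange₀.algHom_ext'
      apply semilinear_ext B.isBaseChange₀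
      intro n
      simp only [LinearMap.comp_apply, LinearMap.coe_restrictScalars]
      rw [ext₀_apply, semiHom_apply, ← B.comm₀, semiHom_apply, ext₀_apply, C.comm₀]
    comm₁ := fun (f : G₁.N₁ →ₗ[R₁] G₂.N₁) => by
      change semiHom ρ₀₁ B.isBaseChange₀₁ C.b₀₁ (ext₁ G₁ G₂ f) =
        ext₁ G₁' G₂' (semiHom ρ₁ B.isBaseChange₁ C.b₁ f)
      apply G₁'.isBaseChange₁.algHom_ext'
      apply semilinear_ext B.isBaseChange₁
      intro n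
      simp only [LinearMap.comp_apply, LinearMap.coe_restrictScalars]
      rw [ext₁_apply, semiHom_apply, ← B.comm₁, semiHom_apply, ext₁_apply, C.comm₁]
    isBaseChange₀ := isSemilinearBaseChange_semiHom ρ₀ B.isBaseChange₀ C.isBaseChange₀
    isBaseChange₁ := isSemilinearBaseChange_semiHom ρ₁ B.isBaseChange₁ C.isBaseChange₁
    isBaseChange₀₁ :=
      haveI : Module.Invertible R₀₁ G₁.N₀₁ :=
        Module.Invertible.congr (G₁.isBaseChange₀.equiv)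
      isSemilinearBaseChange_semiHom ρ₀₁ B.isBaseChange₀₁ C.isBaseChange₀₁ }

/-- **The internal Hom commutes with base change.** -/
theorem isBC_homGD {G₁ G₂ : GlueDatum A R₀ R₁ R₀₁} {G₁' G₂' : GlueDatum A' R₀' R₁' R₀₁'}
    (h₁ : GlueDatum.IsBC ρ₀ ρ₁ ρ₀₁ G₁ G₁') (h₂ : GlueDatum.IsBC ρ₀ ρ₁ ρ₀₁ G₂ G₂') :
    GlueDatum.IsBC ρ₀ ρ₁ ρ₀₁ (homGD G₁ G₂) (homGD G₁' G₂') := by
  obtain ⟨B⟩ := h₁
  obtain ⟨C⟩ := h₂
  exact ⟨bcHom B C⟩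

/-! ### Unit and dual -/

/-- Base change maps between the unit gluing data, for a morphism of cospans. -/
def bcUnit (hc₀ : ∀ r, ρ₀₁ (algebraMap R₀ R₀₁ r) = algebraMap R₀' R₀₁' (ρ₀ r))
    (hc₁ : ∀ r, ρ₀₁ (algebraMap R₁ R₀₁ r) = algebraMap R₁' R₀₁' (ρ₁ r)) :
    GlueDatum.BaseChangeMaps ρ₀ ρ₁ ρ₀₁ (GlueDatum.unit A R₀ R₁ R₀₁)
      (GlueDatum.unit A' R₀' R₁' R₀₁') where
  b₀ := ρ₀.toSemilinearMap
  b₁ := ρ₁.toSemilinearMap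
  b₀₁ := ρ₀₁.toSemilinearMap
  comm₀ := hc₀
  comm₁ := hc₁
  isBaseChange₀ := isSemilinearBaseChange_ringHom ρ₀
  isBaseChange₁ := isSemilinearBaseChange_ringHom ρ₁
  isBaseChange₀₁ := isSemilinearBaseChange_ringHom ρ₀₁

theorem isBC_unit (hc₀ : ∀ r, ρ₀₁ (algebraMap R₀ R₀₁ r) = algebraMap R₀' R₀₁' (ρ₀ r))
    (hc₁ : ∀ r, ρ₀₁ (algebraMap R₁ R₀₁ r) = algebraMap R₁' R₀₁' (ρ₁ r)) :
    GlueDatum.IsBC ρ₀ ρ₁ ρ₀₁ (GlueDatum.unit A R₀ R₁ R₀₁) (GlueDatum.unit A' R₀' R₁' R₀₁') :=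
  ⟨bcUnit hc₀ hc₁⟩

/-- **The dual commutes with base change.** -/
theorem isBC_dualGD (hc₀ : ∀ r, ρ₀₁ (algebraMap R₀ R₀₁ r) = algebraMap R₀' R₀₁' (ρ₀ r))
    (hc₁ : ∀ r, ρ₀₁ (algebraMap R₁ R₀₁ r) = algebraMap R₁' R₀₁' (ρ₁ r))
    {G : GlueDatum A R₀ R₁ R₀₁} {G' : GlueDatum A' R₀' R₁' R₀₁'}
    (h : GlueDatum.IsBC ρ₀ ρ₁ ρ₀₁ G G') :
    GlueDatum.IsBC ρ₀ ρ₁ ρ₀₁ (dualGD G) (dualGD G') :=
  isBC_homGD h (isBC_unit hc₀ hc₁)

/-! ### Curve gluing data -/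

section Curve

variable {k : Type u} [Field k] {B₀ B₁ B₀₁ : Type u} [CommRing B₀] [CommRing B₁] [CommRing B₀₁]
  [Algebra k B₀] [Algebra k B₁] [Algebra k B₀₁] [Algebra B₀ B₀₁] [Algebra B₁ B₀₁]
  [IsScalarTower k B₀ B₀₁] [IsScalarTower k B₁ B₀₁]
  {A A' : Type u} [CommRing A] [Algebra k A] [CommRing A'] [Algebra k A']

/-- `tensorMapLeft` is a morphism of cospans. -/
theorem tensorMapLeft_algebraMap (φ : A →ₐ[k] A') (B B' : Type u) [CommRing B] [CommRing B']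
    [Algebra k B] [Algebra k B'] [Algebra B B'] [IsScalarTower k B B'] (r : A ⊗[k] B) :
    tensorMapLeft k φ B' (algebraMap (A ⊗[k] B) (A ⊗[k] B') r) =
      algebraMap (A' ⊗[k] B) (A' ⊗[k] B') (tensorMapLeft k φ B r) := by
  change tensorMapLeft k φ B' (tensorMapRight k A B B' r) =
    tensorMapRight k A' B B' (tensorMapLeft k φ B r)
  induction r using TensorProduct.induction_on with
  | zero => simp
  | tmul a b => simp [tensorMapLeft, tensorMapRight]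
  | add x y hx hy => simp only [map_add, hx, hy]

theorem curveGD_isBC_unit (φ : A →ₐ[k] A') :
    CurveGD.IsBC (B₀ := B₀) (B₁ := B₁) (B₀₁ := B₀₁) φ
      (GlueDatum.unit A (A ⊗[k] B₀) (A ⊗[k] B₁) (A ⊗[k] B₀₁))
      (GlueDatum.unit A' (A' ⊗[k] B₀) (A' ⊗[k] B₁) (A' ⊗[k] B₀₁)) :=
  isBC_unit (tensorMapLeft_algebraMap φ B₀ B₀₁) (tensorMapLeft_algebraMap φ B₁ B₀₁)

theorem curveGD_isBC_tensorGD (φ : A →ₐ[k] A') {G₁ G₂ : CurveGD k B₀ B₁ B₀₁ A}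
    {G₁' G₂' : CurveGD k B₀ B₁ B₀₁ A'} (h₁ : CurveGD.IsBC φ G₁ G₁')
    (h₂ : CurveGD.IsBC φ G₂ G₂') : CurveGD.IsBC φ (tensorGD G₁ G₂) (tensorGD G₁' G₂') :=
  isBC_tensorGD h₁ h₂

theorem curveGD_isBC_homGD (φ : A →ₐ[k] A') {G₁ G₂ : CurveGD k B₀ B₁ B₀₁ A}
    {G₁' G₂' : CurveGD k B₀ B₁ B₀₁ A'} (h₁ : CurveGD.IsBC φ G₁ G₁')
    (h₂ : CurveGD.IsBC φ G₂ G₂') : CurveGD.IsBC φ (homGD G₁ G₂) (homGD G₁' G₂') :=
  isBC_homGD h₁ h₂

theorem curveGD_isBC_dualGD (φ : A →ₐ[k] A') {G : CurveGD k B₀ B₁ B₀₁ A}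
    {G' : CurveGD k B₀ B₁ B₀₁ A'} (h : CurveGD.IsBC φ G G') :
    CurveGD.IsBC φ (dualGD G) (dualGD G') :=
  isBC_dualGD (tensorMapLeft_algebraMap φ B₀ B₀₁) (tensorMapLeft_algebraMap φ B₁ B₀₁) h

end Curve

end

end Fermat.Agent.S25.H325
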