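/-
S25 helper (helper325), block GDC item 7, part 3: the dual gluing datum and the canonical
isomorphisms of the "Picard calculus" of gluing data:
`G^∨ ⊗ G ≅ unit`, `unit ⊗ G ≅ G`, `G ⊗ G' ≅ G' ⊗ G`, `Hom(G, G') ≅ G^∨ ⊗ G'`,
and the congruences of `tensorGD`, `homGD` with respect to `IsIso`.
Over the frozen `DefsAlg.lean`.  Pure algebra.
-/
import Mathlib
import Fermat.Agent.S25.DefsAlg
import Fermat.Agent.S25.H325.GDCHom
import Fermat.Agent.S25.H325.GDCTensor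
import Fermat.Agent.S25.H325.GDCMor

set_option autoImplicit false

universe u

open TensorProduct

namespace Fermat.Agent.S25.H325

open Fermat.Agent.S25

noncomputable section

variable {A R₀ R₁ R₀₁ : Type u} [CommRing A] [CommRing R₀] [CommRing R₁]
    [CommRing R₀₁] [Algebra A R₀] [Algebra A R₁] [Algebra A R₀₁] [Algebra R₀ R₀₁]
    [Algebra R₁ R₀₁] [IsScalarTower A R₀ R₀₁] [IsScalarTower A R₁ R₀₁]

variable (G G' G'' : GlueDatum A R₀ R₁ R₀₁)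

/-- The dual gluing datum `G^∨ = Hom(G, unit)`. -/
def dualGD : GlueDatum A R₀ R₁ R₀₁ := homGD G (GlueDatum.unit A R₀ R₁ R₀₁)

variable {G G' G''}

/-- Constructor for morphisms out of a tensor product: the compatibility with restriction
only has to be checked on pure tensors. -/
def GDHom.ofTensor {H : GlueDatum A R₀ R₁ R₀₁}
    (f₀ : G.N₀ ⊗[R₀] G'.N₀ →ₗ[R₀] H.N₀) (f₁ : G.N₁ ⊗[R₁] G'.N₁ →ₗ[R₁] H.N₁)
    (f₀₁ : G.N₀₁ ⊗[R₀₁] G'.N₀₁ →ₗ[R₀₁] H.N₀₁)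
    (h₀ : ∀ n n', f₀₁ (G.r₀ n ⊗ₜ[R₀₁] G'.r₀ n') = H.r₀ (f₀ (n ⊗ₜ[R₀] n')))
    (h₁ : ∀ n n', f₀₁ (G.r₁ n ⊗ₜ[R₀₁] G'.r₁ n') = H.r₁ (f₁ (n ⊗ₜ[R₁] n'))) :
    GDHom (tensorGD G G') H where
  f₀ := f₀
  f₁ := f₁
  f₀₁ := f₀₁
  comm₀ s := by
    change f₀₁ (tensorRes (S := R₀₁) G.r₀ G'.r₀ s) = H.r₀ (f₀ s)
    induction s using TensorProduct.induction_on with
    | zero => simp
    | tmul n n' => rw [tensorRes_tmul, h₀]
    | add x y hx hy => simp only [map_add, hx, hy]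
  comm₁ s := by
    change f₀₁ (tensorRes (S := R₀₁) G.r₁ G'.r₁ s) = H.r₁ (f₁ s)
    induction s using TensorProduct.induction_on with
    | zero => simp
    | tmul n n' => rw [tensorRes_tmul, h₁]
    | add x y hx hy => simp only [map_add, hx, hy]

/-! ### `unit ⊗ G ≅ G` -/

theorem tensorGD_unit_left_isIso (G : GlueDatum A R₀ R₁ R₀₁) :
    (tensorGD (GlueDatum.unit A R₀ R₁ R₀₁) G).IsIso G := by
  refine isIso_of_bijective
    (GDHom.ofTensor (G := GlueDatum.unit A R₀ R₁ R₀₁) (G' := G) (H := G)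
      (TensorProduct.lid R₀ G.N₀).toLinearMap (TensorProduct.lid R₁ G.N₁).toLinearMap
      (TensorProduct.lid R₀₁ G.N₀₁).toLinearMap ?_ ?_)
    (TensorProduct.lid R₀ G.N₀).bijective (TensorProduct.lid R₁ G.N₁).bijective
  · intro a n
    change (TensorProduct.lid R₀₁ G.N₀₁) (algebraMap R₀ R₀₁ a ⊗ₜ[R₀₁] G.r₀ n) =
      G.r₀ ((TensorProduct.lid R₀ G.N₀) (a ⊗ₜ[R₀] n))
    rw [TensorProduct.lid_tmul, TensorProduct.lid_tmul, algebraMap_smul, map_smul]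
  · intro a n
    change (TensorProduct.lid R₀₁ G.N₀₁) (algebraMap R₁ R₀₁ a ⊗ₜ[R₀₁] G.r₁ n) =
      G.r₁ ((TensorProduct.lid R₁ G.N₁) (a ⊗ₜ[R₁] n))
    rw [TensorProduct.lid_tmul, TensorProduct.lid_tmul, algebraMap_smul, map_smul]

/-! ### `G ⊗ G' ≅ G' ⊗ G` -/

theorem tensorGD_comm_isIso (G G' : GlueDatum A R₀ R₁ R₀₁) :
    (tensorGD G G').IsIso (tensorGD G' G) := by
  refine isIso_of_bijective
    (GDHom.ofTensor (G := G) (G' := G') (H := tensorGD G' G)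
      (TensorProduct.comm R₀ G.N₀ G'.N₀).toLinearMap
      (TensorProduct.comm R₁ G.N₁ G'.N₁).toLinearMap
      (TensorProduct.comm R₀₁ G.N₀₁ G'.N₀₁).toLinearMap ?_ ?_)
    (TensorProduct.comm R₀ G.N₀ G'.N₀).bijective (TensorProduct.comm R₁ G.N₁ G'.N₁).bijective
  · intro n n'
    change (TensorProduct.comm R₀₁ G.N₀₁ G'.N₀₁) (G.r₀ n ⊗ₜ[R₀₁] G'.r₀ n') =
      tensorRes (S := R₀₁) G'.r₀ G.r₀ ((TensorProduct.comm R₀ G.N₀ G'.N₀) (n ⊗ₜ[R₀] n'))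
    rw [TensorProduct.comm_tmul, TensorProduct.comm_tmul, tensorRes_tmul]
  · intro n n'
    change (TensorProduct.comm R₀₁ G.N₀₁ G'.N₀₁) (G.r₁ n ⊗ₜ[R₀₁] G'.r₁ n') =
      tensorRes (S := R₀₁) G'.r₁ G.r₁ ((TensorProduct.comm R₁ G.N₁ G'.N₁) (n ⊗ₜ[R₁] n'))
    rw [TensorProduct.comm_tmul, TensorProduct.comm_tmul, tensorRes_tmul]

theorem tensorGD_unit_right_isIso (G : GlueDatum A R₀ R₁ R₀₁) :
    (tensorGD G (GlueDatum.unit A R₀ R₁ R₀₁)).IsIso G :=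
  isIso_trans (tensorGD_comm_isIso _ _) (tensorGD_unit_left_isIso G)

/-! ### Congruence of the tensor product -/

theorem tensorGD_isIso_congr {G₁ G₂ G₁' G₂' : GlueDatum A R₀ R₁ R₀₁} (h : G₁.IsIso G₂)
    (h' : G₁'.IsIso G₂') : (tensorGD G₁ G₁').IsIso (tensorGD G₂ G₂') := by
  obtain ⟨e⟩ := h
  obtain ⟨e'⟩ := h'
  refine isIso_of_bijective
    (GDHom.ofTensor (G := G₁) (G' := G₁') (H := tensorGD G₂ G₂')
      (TensorProduct.congr e.e₀ e'.e₀).toLinearMap (TensorProduct.congr e.e₁ e'.e₁).toLinearMap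
      (TensorProduct.congr e.e₀₁ e'.e₀₁).toLinearMap ?_ ?_)
    (TensorProduct.congr e.e₀ e'.e₀).bijective (TensorProduct.congr e.e₁ e'.e₁).bijective
  · intro n n'
    change (TensorProduct.congr e.e₀₁ e'.e₀₁) (G₁.r₀ n ⊗ₜ[R₀₁] G₁'.r₀ n') =
      tensorRes (S := R₀₁) G₂.r₀ G₂'.r₀ ((TensorProduct.congr e.e₀ e'.e₀) (n ⊗ₜ[R₀] n'))
    rw [TensorProduct.congr_tmul, TensorProduct.congr_tmul, tensorRes_tmul, e.comm₀, e'.comm₀]
  · intro n n'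
    change (TensorProduct.congr e.e₀₁ e'.e₀₁) (G₁.r₁ n ⊗ₜ[R₀₁] G₁'.r₁ n') =
      tensorRes (S := R₀₁) G₂.r₁ G₂'.r₁ ((TensorProduct.congr e.e₁ e'.e₁) (n ⊗ₜ[R₁] n'))
    rw [TensorProduct.congr_tmul, TensorProduct.congr_tmul, tensorRes_tmul, e.comm₁, e'.comm₁]

/-! ### `G^∨ ⊗ G ≅ unit` -/

theorem tensorGD_dual_isIso_unit (G : GlueDatum A R₀ R₁ R₀₁) :
    (tensorGD (dualGD G) G).IsIso (GlueDatum.unit A R₀ R₁ R₀₁) := by
  haveI := G.invertible₀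
  haveI := G.invertible₁
  refine isIso_of_bijective
    (GDHom.ofTensor (G := dualGD G) (G' := G) (H := GlueDatum.unit A R₀ R₁ R₀₁)
      (contractLeft R₀ G.N₀) (contractLeft R₁ G.N₁) (contractLeft R₀₁ G.N₀₁) ?_ ?_)
    (Module.Invertible.bijective (R := R₀) (M := G.N₀))
    (Module.Invertible.bijective (R := R₁) (M := G.N₁))
  · rintro (φ : G.N₀ →ₗ[R₀] (GlueDatum.unit A R₀ R₁ R₀₁).N₀) (n : G.N₀)
    change (contractLeft R₀₁ G.N₀₁) ((ext₀ G (GlueDatum.unit A R₀ R₁ R₀₁) φ) ⊗ₜ[R₀₁] G.r₀ n) =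
      (GlueDatum.unit A R₀ R₁ R₀₁).r₀ (φ n)
    rw [contractLeft_apply]
    exact ext₀_apply (G := G) (G' := GlueDatum.unit A R₀ R₁ R₀₁) φ n
  · rintro (φ : G.N₁ →ₗ[R₁] (GlueDatum.unit A R₀ R₁ R₀₁).N₁) (n : G.N₁)
    change (contractLeft R₀₁ G.N₀₁) ((ext₁ G (GlueDatum.unit A R₀ R₁ R₀₁) φ) ⊗ₜ[R₀₁] G.r₁ n) =
      (GlueDatum.unit A R₀ R₁ R₀₁).r₁ (φ n)
    rw [contractLeft_apply]
    exact ext₁_apply (G := G) (G' := GlueDatum.unit A R₀ R₁ R₀₁) φ n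

/-! ### `Hom(G, G') ≅ G^∨ ⊗ G'` -/

theorem tensorGD_dual_isIso_homGD (G G' : GlueDatum A R₀ R₁ R₀₁) :
    (tensorGD (dualGD G) G').IsIso (homGD G G') := by
  haveI := G.invertible₀
  haveI := G.invertible₁
  refine isIso_of_bijective
    (GDHom.ofTensor (G := dualGD G) (G' := G') (H := homGD G G')
      (dualTensorHom R₀ G.N₀ G'.N₀) (dualTensorHom R₁ G.N₁ G'.N₁)
      (dualTensorHom R₀₁ G.N₀₁ G'.N₀₁) ?_ ?_)
    (dualTensorHom_bijective ..) (dualTensorHom_bijective ..)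
  · rintro (φ : G.N₀ →ₗ[R₀] (GlueDatum.unit A R₀ R₁ R₀₁).N₀) (n' : G'.N₀)
    change dualTensorHom R₀₁ G.N₀₁ G'.N₀₁
        ((ext₀ G (GlueDatum.unit A R₀ R₁ R₀₁) φ) ⊗ₜ[R₀₁] G'.r₀ n') =
      ext₀ G G' (dualTensorHom R₀ G.N₀ G'.N₀ (φ ⊗ₜ[R₀] n'))
    apply G.isBaseChange₀.algHom_ext
    intro n
    have h1 : (ext₀ G (GlueDatum.unit A R₀ R₁ R₀₁) φ) (G.r₀ n) = algebraMap R₀ R₀₁ (φ n) :=
      ext₀_apply (G := G) (G' := GlueDatum.unit A R₀ R₁ R₀₁) φ n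
    have h2 := ext₀_apply (G := G) (G' := G') (dualTensorHom R₀ G.N₀ G'.N₀ (φ ⊗ₜ[R₀] n')) n
    rw [h2, dualTensorHom_apply, dualTensorHom_apply, map_smul]
    refine (congrArg (· • G'.r₀ n') h1).trans ?_
    exact algebraMap_smul R₀₁ (show R₀ from φ n) (G'.r₀ n')
  · rintro (φ : G.N₁ →ₗ[R₁] (GlueDatum.unit A R₀ R₁ R₀₁).N₁) (n' : G'.N₁)
    change dualTensorHom R₀₁ G.N₀₁ G'.N₀₁
        ((ext₁ G (GlueDatum.unit A R₀ R₁ R₀₁) φ) ⊗ₜ[R₀₁] G'.r₁ n') =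
      ext₁ G G' (dualTensorHom R₁ G.N₁ G'.N₁ (φ ⊗ₜ[R₁] n'))
    apply G.isBaseChange₁.algHom_ext
    intro n
    have h1 : (ext₁ G (GlueDatum.unit A R₀ R₁ R₀₁) φ) (G.r₁ n) = algebraMap R₁ R₀₁ (φ n) :=
      ext₁_apply (G := G) (G' := GlueDatum.unit A R₀ R₁ R₀₁) φ n
    have h2 := ext₁_apply (G := G) (G' := G') (dualTensorHom R₁ G.N₁ G'.N₁ (φ ⊗ₜ[R₁] n')) n
    rw [h2, dualTensorHom_apply, dualTensorHom_apply, map_smul]
    refine (congrArg (· • G'.r₁ n') h1).trans ?_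
    exact algebraMap_smul R₀₁ (show R₁ from φ n) (G'.r₁ n')

theorem homGD_isIso_tensorGD_dual (G G' : GlueDatum A R₀ R₁ R₀₁) :
    (homGD G G').IsIso (tensorGD (dualGD G) G') :=
  isIso_symm (tensorGD_dual_isIso_homGD G G')

/-! ### Congruence of the internal Hom -/

theorem homGD_isIso_congr {G₁ G₂ G₁' G₂' : GlueDatum A R₀ R₁ R₀₁} (h : G₁.IsIso G₂)
    (h' : G₁'.IsIso G₂') : (homGD G₁ G₁').IsIso (homGD G₂ G₂') := by
  obtain ⟨e⟩ := h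
  obtain ⟨e'⟩ := h'
  have hsymm₀ : ∀ m, e.e₀₁.symm (G₂.r₀ m) = G₁.r₀ (e.e₀.symm m) := fun m => by
    rw [LinearEquiv.symm_apply_eq, e.comm₀, LinearEquiv.apply_symm_apply]
  have hsymm₁ : ∀ m, e.e₀₁.symm (G₂.r₁ m) = G₁.r₁ (e.e₁.symm m) := fun m => by
    rw [LinearEquiv.symm_apply_eq, e.comm₁, LinearEquiv.apply_symm_apply]
  let F : GDHom (homGD G₁ G₁') (homGD G₂ G₂') :=
    { f₀ := (LinearEquiv.arrowCongr e.e₀ e'.e₀).toLinearMap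
      f₁ := (LinearEquiv.arrowCongr e.e₁ e'.e₁).toLinearMap
      f₀₁ := (LinearEquiv.arrowCongr e.e₀₁ e'.e₀₁).toLinearMap
      comm₀ := fun f => by
        change (LinearEquiv.arrowCongr e.e₀₁ e'.e₀₁) (ext₀ G₁ G₁' f) =
          ext₀ G₂ G₂' ((LinearEquiv.arrowCongr e.e₀ e'.e₀) f)
        apply G₂.isBaseChange₀.algHom_ext
        intro m
        rw [ext₀_apply, LinearEquiv.arrowCongr_apply, LinearEquiv.arrowCongr_apply, hsymm₀,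
          ext₀_apply, e'.comm₀]
      comm₁ := fun f => by
        change (LinearEquiv.arrowCongr e.e₀₁ e'.e₀₁) (ext₁ G₁ G₁' f) =
          ext₁ G₂ G₂' ((LinearEquiv.arrowCongr e.e₁ e'.e₁) f)
        apply G₂.isBaseChange₁.algHom_ext
        intro m
        rw [ext₁_apply, LinearEquiv.arrowCongr_apply, LinearEquiv.arrowCongr_apply, hsymm₁,
          ext₁_apply, e'.comm₁] }
  exact isIso_of_bijective F (LinearEquiv.arrowCongr e.e₀ e'.e₀).bijective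
    (LinearEquiv.arrowCongr e.e₁ e'.e₁).bijective

theorem dualGD_isIso_congr {G₁ G₂ : GlueDatum A R₀ R₁ R₀₁} (h : G₁.IsIso G₂) :
    (dualGD G₁).IsIso (dualGD G₂) :=
  homGD_isIso_congr h (isIso_refl _)

/-! ### Consequences -/

/-- `Hom(unit, G) ≅ G`. -/
theorem homGD_unit_isIso (G : GlueDatum A R₀ R₁ R₀₁) :
    (homGD (GlueDatum.unit A R₀ R₁ R₀₁) G).IsIso G := by
  let F : GDHom (homGD (GlueDatum.unit A R₀ R₁ R₀₁) G) G :=
    { f₀ := (LinearMap.ringLmapEquivSelf R₀ R₀ G.N₀).toLinearMap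
      f₁ := (LinearMap.ringLmapEquivSelf R₁ R₁ G.N₁).toLinearMap
      f₀₁ := (LinearMap.ringLmapEquivSelf R₀₁ R₀₁ G.N₀₁).toLinearMap
      comm₀ := fun (f : (GlueDatum.unit A R₀ R₁ R₀₁).N₀ →ₗ[R₀] G.N₀) => by
        change (ext₀ (GlueDatum.unit A R₀ R₁ R₀₁) G f) (1 : R₀₁) = G.r₀ (f (1 : R₀))
        have h := ext₀_apply (G := GlueDatum.unit A R₀ R₁ R₀₁) (G' := G) f (1 : R₀)
        rw [← h]
        congr 1
        exact (map_one (algebraMap R₀ R₀₁)).symm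
      comm₁ := fun (f : (GlueDatum.unit A R₀ R₁ R₀₁).N₁ →ₗ[R₁] G.N₁) => by
        change (ext₁ (GlueDatum.unit A R₀ R₁ R₀₁) G f) (1 : R₀₁) = G.r₁ (f (1 : R₁))
        have h := ext₁_apply (G := GlueDatum.unit A R₀ R₁ R₀₁) (G' := G) f (1 : R₁)
        rw [← h]
        congr 1
        exact (map_one (algebraMap R₁ R₀₁)).symm }
  exact isIso_of_bijective F (LinearMap.ringLmapEquivSelf R₀ R₀ G.N₀).bijective
    (LinearMap.ringLmapEquivSelf R₁ R₁ G.N₁).bijective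

/-- The dual of the unit is the unit. -/
theorem dualGD_unit_isIso :
    (dualGD (GlueDatum.unit A R₀ R₁ R₀₁)).IsIso (GlueDatum.unit A R₀ R₁ R₀₁) :=
  homGD_unit_isIso _

/-- `G ⊗ G^∨ ≅ unit`. -/
theorem tensorGD_dual_right_isIso_unit (G : GlueDatum A R₀ R₁ R₀₁) :
    (tensorGD G (dualGD G)).IsIso (GlueDatum.unit A R₀ R₁ R₀₁) :=
  isIso_trans (tensorGD_comm_isIso _ _) (tensorGD_dual_isIso_unit G)

end

end Fermat.Agent.S25.H325
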