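/-
S25 helper (helper325), block GDC item 7: the gluing datum `idealGD I₀ I₁ I₀₁` (= `O(-D)`) of a
compatible pair of invertible ideals, over the frozen `DefsAlg.lean`.  Pure algebra.
-/
import Mathlib
import Fermat.Agent.S25.DefsAlg
import Fermat.Agent.S25.H325.HomBaseChange

set_option autoImplicit false

universe u

open TensorProduct

namespace Fermat.Agent.S25.H325

open Fermat.Agent.S25

noncomputable section

section IdealBaseChange

variable {R S : Type*} [CommRing R] [CommRing S] [Algebra R S]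

/-- The map `I → J`, `a ↦ algebraMap a`, for ideals `I ⊆ R`, `J ⊆ S` with `I · S ≤ J`. -/
def idealRes (I : Ideal R) (J : Ideal S) (h : I.map (algebraMap R S) ≤ J) : I →ₗ[R] J where
  toFun a := ⟨algebraMap R S a, h (Ideal.mem_map_of_mem _ a.2)⟩
  map_add' a b := by ext; simp
  map_smul' r a := by
    ext
    simp [Algebra.smul_def]

@[simp] theorem idealRes_apply_coe (I : Ideal R) (J : Ideal S)
    (h : I.map (algebraMap R S) ≤ J) (a : I) :
    ((idealRes I J h a : J) : S) = algebraMap R S a := rfl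

/-- For a flat `R`-algebra `S` and an ideal `I ⊆ R`, the extended ideal `I · S` is the base
change of `I`. -/
theorem isBaseChange_idealRes [Module.Flat R S] (I : Ideal R) (J : Ideal S)
    (h : I.map (algebraMap R S) = J) : IsBaseChange S (idealRes I J h.le) := by
  apply isBaseChange_of_bijective_liftBaseChange
  set Ψ := (idealRes I J h.le).liftBaseChange S with hΨ
  -- `J ↪ S` composed with `Ψ` is `S ⊗ I → S ⊗ R ≅ S`
  have hcomp : ∀ z : S ⊗[R] I,
      ((Ψ z : J) : S) = (AlgebraTensorModule.rid R S S) ((I.subtype.lTensor S) z) := by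
    intro z
    induction z using TensorProduct.induction_on with
    | zero => simp
    | tmul s a =>
      simp only [hΨ, LinearMap.liftBaseChange_tmul, LinearMap.lTensor_tmul,
        AlgebraTensorModule.rid_tmul, Submodule.coe_smul, idealRes_apply_coe,
        Submodule.subtype_apply, smul_eq_mul]
      rw [Algebra.smul_def, mul_comm]
    | add x y hx hy => simp only [map_add, Submodule.coe_add, hx, hy]
  constructor
  · intro z z' hzz'
    have h1 : (AlgebraTensorModule.rid R S S) ((I.subtype.lTensor S) z) =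
        (AlgebraTensorModule.rid R S S) ((I.subtype.lTensor S) z') := by
      rw [← hcomp, ← hcomp, hzz']
    have h2 := (AlgebraTensorModule.rid R S S).injective h1
    exact Module.Flat.lTensor_preserves_injective_linearMap (M := S) I.subtype
      Subtype.val_injective h2
  · -- the image is an ideal containing the generators of `J`
    let T : Submodule S S := (LinearMap.range Ψ).map J.subtype
    have hT : J ≤ T := by
      rw [← h, Ideal.map, Ideal.span_le]
      rintro _ ⟨a, ha, rfl⟩
      refine ⟨Ψ ((1 : S) ⊗ₜ[R] (⟨a, ha⟩ : I)), ⟨_, rfl⟩, ?_⟩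
      simp [hΨ]
    intro y
    obtain ⟨y', ⟨z, rfl⟩, hz⟩ := hT y.2
    exact ⟨z, Subtype.ext hz⟩

end IdealBaseChange

variable {A R₀ R₁ R₀₁ : Type u} [CommRing A] [CommRing R₀] [CommRing R₁]
    [CommRing R₀₁] [Algebra A R₀] [Algebra A R₁] [Algebra A R₀₁] [Algebra R₀ R₀₁]
    [Algebra R₁ R₀₁] [IsScalarTower A R₀ R₀₁] [IsScalarTower A R₁ R₀₁]

/-- The gluing datum `O(-D)` of a compatible pair of invertible ideals `I₀ ⊆ R₀`, `I₁ ⊆ R₁`
(with common extension `I₀₁ ⊆ R₀₁`), when `R₀₁` is flat over `R₀` and `R₁` (e.g. a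
localization of both). -/
def idealGD [Module.Flat R₀ R₀₁] [Module.Flat R₁ R₀₁] (I₀ : Ideal R₀) (I₁ : Ideal R₁)
    (I₀₁ : Ideal R₀₁) (h₀ : I₀.map (algebraMap R₀ R₀₁) = I₀₁)
    (h₁ : I₁.map (algebraMap R₁ R₀₁) = I₀₁) (inv₀ : Module.Invertible R₀ I₀)
    (inv₁ : Module.Invertible R₁ I₁) : GlueDatum A R₀ R₁ R₀₁ where
  N₀ := I₀
  N₁ := I₁
  N₀₁ := I₀₁
  r₀ := idealRes I₀ I₀₁ h₀.le
  r₁ := idealRes I₁ I₀₁ h₁.le
  isBaseChange₀ := isBaseChange_idealRes I₀ I₀₁ h₀
  isBaseChange₁ := isBaseChange_idealRes I₁ I₀₁ h₁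
  invertible₀ := inv₀
  invertible₁ := inv₁

end

end Fermat.Agent.S25.H325
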