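/-
S25 helper (helper325), block ALGCHARTS, leaf COV3-DATUM: the gluing datum `O(D)(-n E₀)` of a
relative effective divisor `D = V(J) ⊆ Spec (A ⊗ B₀)` (finite flat over `A`), with its canonical
section `s = 1`.  In the language of the frozen `DefsAlg.lean` / `H11/ACDefs.lean`.

* `odGD A hC n J` : the datum `(Hom(J, R₀), Hom(contr J, R₁), Hom(J R₀₁, R₀₁))`, `r₁` twisted by `yⁿ`;
* `odSec₀`, `odSec₁` : the canonical section (the inclusions);
* `odSec_mem` : it is a section of `G(n E₀)`;  `odSec_genModY` : it does not vanish on `E₀`;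
* `odSec_span` : `span {s₀} = J • ⊤`;
* `odGD_rigidifiable`, `odGD_isBC`;
* `exists_datum_of_ideal` : packaged form.
-/
import Mathlib
import Fermat.Agent.S25.DefsAlg
import Fermat.Agent.S25.H11.ACDefs
import Fermat.Agent.S25.H851.HilbGD
import Fermat.Agent.S25.H325.GDCIso
import Fermat.Agent.S25.H325.GDCBC
import Fermat.Agent.S25.H625.GDTwist

set_option autoImplicit false
set_option linter.style.haveILetI false
set_option linter.unusedSectionVars false

universe u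

open TensorProduct

namespace Fermat.Agent.S25.H325

open Fermat.Agent.S25 Fermat.Agent.S25.H11

noncomputable section

variable {k : Type u} [Field k] [IsAlgClosed k] {B₀ B₁ B₀₁ : Type u} [CommRing B₀] [CommRing B₁]
  [CommRing B₀₁] [Algebra k B₀] [Algebra k B₁] [Algebra k B₀₁] [Algebra B₀ B₀₁] [Algebra B₁ B₀₁]
  [IsScalarTower k B₀ B₀₁] [IsScalarTower k B₁ B₀₁] {x : B₀} {y : B₁} {e : B₁ →ₐ[k] k}

variable (A : Type u) [CommRing A] [Algebra k A]

/-- The unit `1 ⊗ y` of `A ⊗ B₀₁`. -/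
def yUnit (hC : IsCurveChart k B₀ B₁ B₀₁ x y e) : (A ⊗[k] B₀₁)ˣ where
  val := algebraMap (A ⊗[k] B₁) (A ⊗[k] B₀₁) ((1 : A) ⊗ₜ[k] y)
  inv := algebraMap (A ⊗[k] B₀) (A ⊗[k] B₀₁) ((1 : A) ⊗ₜ[k] x)
  val_inv := by rw [mul_comm]; exact H851.tensor_xy A hC
  inv_val := H851.tensor_xy A hC

theorem xElt_mul_yUnit (hC : IsCurveChart k B₀ B₁ B₀₁ x y e) :
    xElt k B₀₁ A x * ((yUnit A hC : (A ⊗[k] B₀₁)ˣ) : A ⊗[k] B₀₁) = 1 := by
  have h := H851.tensor_xy A hC
  rw [H250.algebraMap_tensor_tmul] at h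
  exact h

theorem xElt_pow_mul_yUnit_pow (hC : IsCurveChart k B₀ B₁ B₀₁ x y e) (n : ℕ) :
    xElt k B₀₁ A x ^ n * (((yUnit A hC) ^ n : (A ⊗[k] B₀₁)ˣ) : A ⊗[k] B₀₁) = 1 := by
  rw [Units.val_pow_eq_pow_val, ← mul_pow, xElt_mul_yUnit, one_pow]

/-- The gluing datum `O(D)(-n E₀)` of the relative effective divisor `D = V(J)`. -/
def odGD (hC : IsCurveChart k B₀ B₁ B₀₁ x y e) (n : ℕ) (J : Ideal (A ⊗[k] B₀))
    [Module.Finite A ((A ⊗[k] B₀) ⧸ J)] [Module.Projective A ((A ⊗[k] B₀) ⧸ J)] :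
    CurveGD k B₀ B₁ B₀₁ A :=
  H625.twist (dualGD (H851.hilbGD A hC J)) (yUnit A hC ^ n)

variable (hC : IsCurveChart k B₀ B₁ B₀₁ x y e) (n : ℕ) (J : Ideal (A ⊗[k] B₀))
    [Module.Finite A ((A ⊗[k] B₀) ⧸ J)] [Module.Projective A ((A ⊗[k] B₀) ⧸ J)]

/-- The canonical section on the chart `0`: the inclusion `J → A ⊗ B₀`. -/
def odSec₀ : (odGD A hC n J).N₀ := (J.subtype : J →ₗ[A ⊗[k] B₀] A ⊗[k] B₀)

/-- The canonical section on the chart `1`: the inclusion `contr J → A ⊗ B₁`. -/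
def odSec₁ : (odGD A hC n J).N₁ :=
  ((H851.contr (A ⊗[k] B₁) (A ⊗[k] B₀₁) J).subtype :
    (H851.contr (A ⊗[k] B₁) (A ⊗[k] B₀₁) J) →ₗ[A ⊗[k] B₁] A ⊗[k] B₁)

/-- The inclusion `O(-D) → O` as a morphism of gluing data. -/
def inclHom : GDHom (H851.hilbGD A hC J)
    (GlueDatum.unit A (A ⊗[k] B₀) (A ⊗[k] B₁) (A ⊗[k] B₀₁)) where
  f₀ := J.subtype
  f₁ := (H851.contr (A ⊗[k] B₁) (A ⊗[k] B₀₁) J).subtype
  f₀₁ := (J.map (algebraMap (A ⊗[k] B₀) (A ⊗[k] B₀₁))).subtype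
  comm₀ _ := rfl
  comm₁ _ := rfl

theorem odGD_r₀_odSec₀ :
    (odGD A hC n J).r₀ (odSec₀ A hC n J) =
      (show (odGD A hC n J).N₀₁ from (inclHom A hC J).f₀₁) :=
  (inclHom A hC J).ext₀_eq

theorem odGD_r₁_odSec₁ :
    (odGD A hC n J).r₁ (odSec₁ A hC n J) =
      (((yUnit A hC) ^ n : (A ⊗[k] B₀₁)ˣ) : A ⊗[k] B₀₁) •
        (show (odGD A hC n J).N₀₁ from (inclHom A hC J).f₀₁) := by
  have h : (dualGD (H851.hilbGD A hC J)).r₁ (odSec₁ A hC n J) = (inclHom A hC J).f₀₁ :=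
    (inclHom A hC J).ext₁_eq
  change (((yUnit A hC) ^ n : (A ⊗[k] B₀₁)ˣ) : A ⊗[k] B₀₁) •
    (dualGD (H851.hilbGD A hC J)).r₁ (odSec₁ A hC n J) = _
  rw [h]
  rfl

/-- The canonical section is a section of `G(n E₀)`. -/
theorem odSec_mem : (odSec₀ A hC n J, odSec₁ A hC n J) ∈ sec x n (odGD A hC n J) := by
  rw [mem_sec]
  change (odGD A hC n J).r₀ (odSec₀ A hC n J) =
    xElt k B₀₁ A x ^ n • (odGD A hC n J).r₁ (odSec₁ A hC n J)
  rw [odGD_r₀_odSec₀, odGD_r₁_odSec₁, smul_smul, xElt_pow_mul_yUnit_pow, one_smul]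

/-- For an ideal `I`, a linear form `φ` on `I` and `a ∈ I`: `a • φ = φ a • (inclusion)`. -/
theorem ideal_smul_dual {R : Type*} [CommRing R] (I : Ideal R) (φ : I →ₗ[R] R) (a : I) :
    (a : R) • φ = φ a • I.subtype := by
  ext z
  simp only [LinearMap.smul_apply, Submodule.subtype_apply, smul_eq_mul]
  have h := H851.ideal_dual_symm I φ a z
  have h2 := congrArg (Subtype.val : I → R) h
  simp only [Submodule.coe_smul, smul_eq_mul] at h2
  -- `φ a * z = φ z * a`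
  rw [h2, mul_comm]

/-- The canonical section does not vanish on `E₀ = {y = 0}`. -/
theorem odSec_genModY : GenModY y (odGD A hC n J) (odSec₁ A hC n J) := by
  intro c
  obtain ⟨u, hu, r, hr⟩ := H851.exists_mem_contr_isCoprime (A := A) ((1 : A) ⊗ₜ[k] x)
    ((1 : A) ⊗ₜ[k] y) (H851.tensor_xy A hC) J
  set J₁ := H851.contr (A ⊗[k] B₁) (A ⊗[k] B₀₁) J with hJ₁
  let c' : J₁ →ₗ[A ⊗[k] B₁] A ⊗[k] B₁ := c
  refine ⟨c' ⟨u, hu⟩, ?_⟩
  have key : c' - c' ⟨u, hu⟩ • J₁.subtype = yElt k A y • (-(r • c')) := by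
    rw [← ideal_smul_dual J₁ c' ⟨u, hu⟩]
    change c' - u • c' = _
    rw [hr, yElt]
    module
  have hmem : yElt k A y • (-(r • c')) ∈
      (Ideal.span {yElt k A y} • ⊤ : Submodule (A ⊗[k] B₁) (J₁ →ₗ[A ⊗[k] B₁] A ⊗[k] B₁)) :=
    Submodule.smul_mem_smul (Ideal.subset_span rfl) Submodule.mem_top
  rw [← key] at hmem
  exact hmem

/-- The divisor of the canonical section is `D`: `span {s₀} = J • ⊤`. -/
theorem odSec_span :
    Submodule.span (A ⊗[k] B₀) {odSec₀ A hC n J} =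
      J • (⊤ : Submodule (A ⊗[k] B₀) (odGD A hC n J).N₀) := by
  haveI : Module.Invertible (A ⊗[k] B₀) J := H851.hilb_invertible A hC J
  change Submodule.span (A ⊗[k] B₀) {(J.subtype : J →ₗ[A ⊗[k] B₀] A ⊗[k] B₀)} =
    J • (⊤ : Submodule (A ⊗[k] B₀) (J →ₗ[A ⊗[k] B₀] A ⊗[k] B₀))
  apply le_antisymm
  · rw [Submodule.span_le, Set.singleton_subset_iff, SetLike.mem_coe]
    have hall : ∀ t : Module.Dual (A ⊗[k] B₀) J ⊗[A ⊗[k] B₀] J,
        (Module.Invertible.linearEquiv (A ⊗[k] B₀) J t) • J.subtype ∈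
          J • (⊤ : Submodule (A ⊗[k] B₀) (J →ₗ[A ⊗[k] B₀] A ⊗[k] B₀)) := by
      intro t
      induction t using TensorProduct.induction_on with
      | zero => simp
      | tmul φ a =>
        have h1 : Module.Invertible.linearEquiv (A ⊗[k] B₀) J (φ ⊗ₜ a) = φ a := rfl
        rw [h1, ← ideal_smul_dual J φ a]
        exact Submodule.smul_mem_smul a.2 Submodule.mem_top
      | add t t' ht ht' =>
        rw [map_add, add_smul]
        exact Submodule.add_mem _ ht ht'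
    obtain ⟨t, ht⟩ := (Module.Invertible.linearEquiv (A ⊗[k] B₀) J).surjective 1
    have := hall t
    rwa [ht, one_smul] at this
  · rw [Submodule.smul_le]
    intro a ha φ _
    have h := ideal_smul_dual J φ ⟨a, ha⟩
    change a • φ = _ at h
    rw [h]
    exact Submodule.smul_mem _ _ (Submodule.subset_span rfl)

/-- The datum `O(D)(-n E₀)` is rigidifiable along `e` (the marked point does not lie on `D`). -/
theorem odGD_rigidifiable : (odGD A hC n J).Rigidifiable e := by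
  obtain ⟨u, hu, hu1⟩ := H851.exists_mem_contr_epsHom_eq_one (e := e) A hC J
  set J₁ := H851.contr (A ⊗[k] B₁) (A ⊗[k] B₀₁) J with hJ₁
  haveI : Module.Invertible (A ⊗[k] B₁) J₁ := H851.hilb_contr_invertible A hC J
  let b : (J₁ →ₗ[A ⊗[k] B₁] A ⊗[k] B₁) →ₛₗ[(epsHom e A).toRingHom] A :=
    { toFun := fun c => epsHom e A (c ⟨u, hu⟩)
      map_add' := fun c c' => by simp
      map_smul' := fun r c => by simp }
  have hb : IsSemilinearBaseChange (epsHom e A).toRingHom b := by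
    refine H851.isSemilinearBaseChange_of_span (epsHom e A).toRingHom b ?_
    rw [eq_top_iff]
    intro a _
    have h1 : (1 : A) ∈ Submodule.span A (Set.range b) := by
      refine Submodule.subset_span ⟨J₁.subtype, ?_⟩
      change epsHom e A u = 1
      exact hu1
    have := Submodule.smul_mem _ a h1
    simpa using this
  exact ⟨b, hb⟩

section BaseChange

variable {A} {A' : Type u} [CommRing A'] [Algebra k A']

theorem map_yUnit (φ : A →ₐ[k] A') :
    Units.map (tensorMapLeft k φ B₀₁).toMonoidHom (yUnit A hC) = yUnit A' hC := by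
  apply Units.ext
  change tensorMapLeft k φ B₀₁ (algebraMap (A ⊗[k] B₁) (A ⊗[k] B₀₁) ((1 : A) ⊗ₜ[k] y)) =
    algebraMap (A' ⊗[k] B₁) (A' ⊗[k] B₀₁) ((1 : A') ⊗ₜ[k] y)
  rw [tensorMapLeft_algebraMap, H851.tensorMapLeft_tmul, map_one]

/-- **Base change.** `O(D)(-n E₀)` base-changes along `φ : A → A'` to the datum of
`J' = J · (A' ⊗ B₀)`. -/
theorem odGD_isBC (φ : A →ₐ[k] A') (J' : Ideal (A' ⊗[k] B₀))
    [Module.Finite A' ((A' ⊗[k] B₀) ⧸ J')] [Module.Projective A' ((A' ⊗[k] B₀) ⧸ J')]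
    (hJ' : J.map (tensorMapLeft k φ B₀) = J') :
    CurveGD.IsBC φ (odGD A hC n J) (odGD A' hC n J') := by
  have h1 := H851.hilbGD_isBC hC φ J J' hJ'
  have h2 := curveGD_isBC_dualGD φ h1
  have h3 := H625.isBC_twist h2 (yUnit A hC ^ n)
  rw [map_pow, map_yUnit] at h3
  exact h3

end BaseChange

/-- **COV3-DATUM, packaged.**  For every relative effective divisor `D = V(J)` on
`Spec (A ⊗ B₀)` (finite flat over `A`) and every twist `n` there is a rigidifiable gluing datum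
with a section of `G(n E₀)` not vanishing on `E₀` and with divisor `D`. -/
theorem exists_datum_of_ideal (hC : IsCurveChart k B₀ B₁ B₀₁ x y e) (n : ℕ)
    (J : Ideal (A ⊗[k] B₀)) [Module.Finite A ((A ⊗[k] B₀) ⧸ J)]
    [Module.Projective A ((A ⊗[k] B₀) ⧸ J)] :
    ∃ D : CurveGD k B₀ B₁ B₀₁ A, D.Rigidifiable e ∧ ∃ s ∈ sec x n D, GenModY y D s.2 ∧
      Submodule.span (A ⊗[k] B₀) {s.1} = J • (⊤ : Submodule (A ⊗[k] B₀) D.N₀) :=
  ⟨odGD A hC n J, odGD_rigidifiable A hC n J, (odSec₀ A hC n J, odSec₁ A hC n J),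
    odSec_mem A hC n J, odSec_genModY A hC n J, odSec_span A hC n J⟩

end

end Fermat.Agent.S25.H325
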