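/-
S25 helper (helper325), block ALGCHARTS (COV3 / SH2 support): the quotient by a product of two
"Hilbert" ideals is again finite projective over the base.  Pure algebra.
-/
import Mathlib
import Fermat.Agent.S25.H11.ProjAlg

set_option autoImplicit false
set_option linter.style.haveILetI false

open TensorProduct

namespace Fermat.Agent.S25.H325

section QuotMul

variable {A R : Type*} [CommRing A] [CommRing R] [Algebra A R]

/-- `(R ⧸ I) ⊗[R] M` is finite projective over `A` when `R ⧸ I` is finite projective over `A` and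
`M` is finite projective over `R`. -/
theorem finite_projective_quot_tensor (I : Ideal R) (M : Type*) [AddCommGroup M] [Module R M]
    [Module.Finite A (R ⧸ I)] [Module.Projective A (R ⧸ I)]
    [Module.Finite R M] [Module.Projective R M] :
    Module.Finite A ((R ⧸ I) ⊗[R] M) ∧ Module.Projective A ((R ⧸ I) ⊗[R] M) := by
  haveI : Module.Finite (R ⧸ I) ((R ⧸ I) ⊗[R] M) := inferInstance
  haveI : Module.Projective (R ⧸ I) ((R ⧸ I) ⊗[R] M) := inferInstance
  exact ⟨Module.Finite.trans (R ⧸ I) _, H11.projective_of_tower A (R ⧸ I) _⟩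

/-- `M ⧸ I • ⊤` is finite projective over `A` when `R ⧸ I` is finite projective over `A` and
`M` is finite projective over `R`. -/
theorem finite_projective_quot_smul_top (I : Ideal R) (M : Type*) [AddCommGroup M] [Module R M]
    [Module A M] [IsScalarTower A R M]
    [Module.Finite A (R ⧸ I)] [Module.Projective A (R ⧸ I)]
    [Module.Finite R M] [Module.Projective R M] :
    Module.Finite A (M ⧸ (I • ⊤ : Submodule R M)) ∧
      Module.Projective A (M ⧸ (I • ⊤ : Submodule R M)) := by
  obtain ⟨h1, h2⟩ := finite_projective_quot_tensor (A := A) I M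
  let e : ((R ⧸ I) ⊗[R] M) ≃ₗ[A] (M ⧸ (I • ⊤ : Submodule R M)) :=
    (quotTensorEquivQuotSMul M I).restrictScalars A
  exact ⟨Module.Finite.equiv e, Module.Projective.of_equiv e⟩

/-- The canonical map `I' ⧸ I • ⊤ → R ⧸ (I * I')`. -/
noncomputable def quotMulIncl (I I' : Ideal R) :
    ((I' : Type _) ⧸ (I • ⊤ : Submodule R I')) →ₗ[R] R ⧸ (I * I') :=
  Submodule.liftQ _ ((I * I').mkQ.comp I'.subtype) (by
    rw [Submodule.smul_le]
    intro r hr n _
    rw [LinearMap.mem_ker, LinearMap.comp_apply, Submodule.mkQ_apply,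
      Submodule.Quotient.mk_eq_zero]
    exact Ideal.mul_mem_mul hr n.2)

@[simp] theorem quotMulIncl_mk (I I' : Ideal R) (a : I') :
    quotMulIncl I I' (Submodule.Quotient.mk a) = Ideal.Quotient.mk (I * I') (a : R) := rfl

theorem mem_smul_top_iff (I I' : Ideal R) (a : I') :
    a ∈ (I • ⊤ : Submodule R I') ↔ (a : R) ∈ I * I' := by
  have h : (I • ⊤ : Submodule R I').map I'.subtype = I * I' := by
    rw [Submodule.map_smul'', Submodule.map_top, Submodule.range_subtype]
    rfl
  constructor
  · intro ha
    rw [← h]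
    exact ⟨a, ha, rfl⟩
  · intro ha
    rw [← h] at ha
    obtain ⟨b, hb, hba⟩ := ha
    have : b = a := Subtype.ext hba
    rwa [← this]

theorem quotMulIncl_injective (I I' : Ideal R) : Function.Injective (quotMulIncl I I') := by
  rw [← LinearMap.ker_eq_bot, LinearMap.ker_eq_bot']
  intro z hz
  obtain ⟨a, rfl⟩ := Submodule.Quotient.mk_surjective _ z
  rw [quotMulIncl_mk, Ideal.Quotient.eq_zero_iff_mem] at hz
  rw [Submodule.Quotient.mk_eq_zero]
  exact (mem_smul_top_iff I I' a).mpr hz

/-- The quotient by a product `I * I'` is finite projective over `A` if the quotients by `I` and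
by `I'` are, and `I'` is a finite projective `R`-module (e.g. invertible). -/
theorem finite_projective_quot_mul (I I' : Ideal R)
    [Module.Finite A (R ⧸ I)] [Module.Projective A (R ⧸ I)]
    [Module.Finite A (R ⧸ I')] [Module.Projective A (R ⧸ I')]
    [Module.Finite R I'] [Module.Projective R I'] :
    Module.Finite A (R ⧸ (I * I')) ∧ Module.Projective A (R ⧸ (I * I')) := by
  obtain ⟨hK1, hK2⟩ := finite_projective_quot_smul_top (A := A) I I'
  -- the projection onto `R ⧸ I'`
  let π : (R ⧸ (I * I')) →ₗ[A] (R ⧸ I') :=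
    (Ideal.Quotient.factorₐ A (Ideal.mul_le_right (I := I) (J := I'))).toLinearMap
  have hπ : ∀ r : R, π (Ideal.Quotient.mk (I * I') r) = Ideal.Quotient.mk I' r := fun r => rfl
  have hπs : Function.Surjective π := by
    intro z
    obtain ⟨r, rfl⟩ := Ideal.Quotient.mk_surjective z
    exact ⟨Ideal.Quotient.mk _ r, hπ r⟩
  obtain ⟨σ, hσ⟩ := LinearMap.exists_rightInverse_of_surjective π
    (LinearMap.range_eq_top.mpr hπs)
  have hσ' : ∀ t, π (σ t) = t := fun t => by
    have := congrArg (fun f : (R ⧸ I') →ₗ[A] (R ⧸ I') => f t) hσ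
    simpa using this
  -- the inclusion of the kernel
  let j : ((I' : Type _) ⧸ (I • ⊤ : Submodule R I')) →ₗ[A] R ⧸ (I * I') :=
    (quotMulIncl I I').restrictScalars A
  have hj : Function.Injective j := quotMulIncl_injective I I'
  have hker : ∀ q, π q = 0 → ∃ z, j z = q := by
    intro q hq
    obtain ⟨r, rfl⟩ := Ideal.Quotient.mk_surjective q
    rw [hπ, Ideal.Quotient.eq_zero_iff_mem] at hq
    exact ⟨Submodule.Quotient.mk ⟨r, hq⟩, rfl⟩
  -- the retraction
  let eK := LinearEquiv.ofInjective j hj
  let s : (((I' : Type _) ⧸ (I • ⊤ : Submodule R I')) × (R ⧸ I')) →ₗ[A] R ⧸ (I * I') :=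
    j.coprod σ
  have hs : Function.Surjective s := by
    intro q
    obtain ⟨z, hz⟩ := hker (q - σ (π q)) (by rw [map_sub, hσ', sub_self])
    refine ⟨(z, π q), ?_⟩
    simp only [s, LinearMap.coprod_apply, hz, sub_add_cancel]
  have hsi : Function.Injective s := by
    rw [← LinearMap.ker_eq_bot, LinearMap.ker_eq_bot']
    rintro ⟨z, t⟩ hzt
    simp only [s, LinearMap.coprod_apply] at hzt
    have hjz : π (j z) = 0 := by
      obtain ⟨a, rfl⟩ := Submodule.Quotient.mk_surjective _ z
      change π (Ideal.Quotient.mk (I * I') (a : R)) = 0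
      rw [hπ, Ideal.Quotient.eq_zero_iff_mem]
      exact a.2
    have ht : t = 0 := by
      have := congrArg π hzt
      rwa [map_add, hjz, hσ', zero_add, map_zero] at this
    subst ht
    rw [map_zero, add_zero] at hzt
    have hz : z = 0 := hj (by rw [hzt, map_zero])
    rw [hz]
    rfl
  let E := LinearEquiv.ofBijective s ⟨hsi, hs⟩
  exact ⟨Module.Finite.equiv E, Module.Projective.of_equiv E⟩

end QuotMul

end Fermat.Agent.S25.H325
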