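/-
S25 helper (helper325), block ALGCHARTS, leaf COV3-DATUM (part 2): products of Hilbert ideals and
the divisor `Σ q i`; the universal datum for `J = I' * ptIdeal q A`.
-/
import Mathlib
import Fermat.Agent.S25.H325.QuotMul
import Fermat.Agent.S25.H325.ACUnivDatum

set_option autoImplicit false
set_option linter.style.haveILetI false
set_option linter.unusedSectionVars false

universe u

open TensorProduct

namespace Fermat.Agent.S25.H325

open Fermat.Agent.S25 Fermat.Agent.S25.H11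

noncomputable section

variable {k : Type u} [Field k] [IsAlgClosed k] {B₀ B₁ B₀₁ : Type u} [CommRing B₀] [CommRing B₁]
  [CommRing B₀₁] [Algebra k B₀] [Algebra k B₁] [Algebra k B₀₁] [Algebra B₀ B₀₁] [Algebra B₁ B₀₁]
  [IsScalarTower k B₀ B₀₁] [IsScalarTower k B₁ B₀₁] {x : B₀} {y : B₁} {e : B₁ →ₐ[k] k}

variable (A : Type u) [CommRing A] [Algebra k A]

/-- In a curve chart, the quotient by a product of two ideals with finite projective quotients
is finite projective over the base. -/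
theorem hilb_quot_mul (hC : IsCurveChart k B₀ B₁ B₀₁ x y e) (I I' : Ideal (A ⊗[k] B₀))
    [Module.Finite A ((A ⊗[k] B₀) ⧸ I)] [Module.Projective A ((A ⊗[k] B₀) ⧸ I)]
    [Module.Finite A ((A ⊗[k] B₀) ⧸ I')] [Module.Projective A ((A ⊗[k] B₀) ⧸ I')] :
    Module.Finite A ((A ⊗[k] B₀) ⧸ (I * I')) ∧ Module.Projective A ((A ⊗[k] B₀) ⧸ (I * I')) := by
  haveI : Module.Invertible (A ⊗[k] B₀) I' := H851.hilb_invertible A hC I'
  exact finite_projective_quot_mul (A := A) I I'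

theorem ptHom_surjective (p : B₀ →ₐ[k] k) : Function.Surjective (ptHom p A) := fun a =>
  ⟨a ⊗ₜ[k] 1, by simp⟩

/-- The quotient by the ideal of a point is free of rank one. -/
theorem quot_ker_ptHom (p : B₀ →ₐ[k] k) :
    Module.Finite A ((A ⊗[k] B₀) ⧸ RingHom.ker (ptHom p A)) ∧
      Module.Projective A ((A ⊗[k] B₀) ⧸ RingHom.ker (ptHom p A)) := by
  let E : ((A ⊗[k] B₀) ⧸ RingHom.ker (ptHom p A)) ≃ₗ[A] A :=
    (Ideal.quotientKerAlgEquivOfSurjective (ptHom_surjective A p)).toLinearEquiv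
  exact ⟨Module.Finite.equiv E.symm, Module.Projective.of_equiv E.symm⟩

/-- The quotient by a finite product of ideals with finite projective quotients is finite
projective. -/
theorem hilb_quot_prod (hC : IsCurveChart k B₀ B₁ B₀₁ x y e) {ι : Type*} (s : Finset ι)
    (I : ι → Ideal (A ⊗[k] B₀))
    (hI : ∀ i ∈ s, Module.Finite A ((A ⊗[k] B₀) ⧸ I i) ∧
      Module.Projective A ((A ⊗[k] B₀) ⧸ I i)) :
    Module.Finite A ((A ⊗[k] B₀) ⧸ ∏ i ∈ s, I i) ∧
      Module.Projective A ((A ⊗[k] B₀) ⧸ ∏ i ∈ s, I i) := by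
  classical
  induction s using Finset.induction_on with
  | empty =>
    rw [Finset.prod_empty, Ideal.one_eq_top]
    haveI : Subsingleton ((A ⊗[k] B₀) ⧸ (⊤ : Ideal (A ⊗[k] B₀))) :=
      Ideal.Quotient.subsingleton_iff.mpr rfl
    exact ⟨inferInstance, inferInstance⟩
  | insert a s ha ih =>
    rw [Finset.prod_insert ha]
    obtain ⟨h1, h2⟩ := hI a (Finset.mem_insert_self a s)
    obtain ⟨h3, h4⟩ := ih (fun i hi => hI i (Finset.mem_insert_of_mem hi))
    exact hilb_quot_mul A hC (I a) (∏ i ∈ s, I i)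

/-- The quotient by the ideal of the divisor `Σ q i` is finite projective. -/
theorem quot_ptIdeal (hC : IsCurveChart k B₀ B₁ B₀₁ x y e) {m : ℕ} (q : Fin m → (B₀ →ₐ[k] k)) :
    Module.Finite A ((A ⊗[k] B₀) ⧸ ptIdeal q A) ∧
      Module.Projective A ((A ⊗[k] B₀) ⧸ ptIdeal q A) :=
  hilb_quot_prod A hC Finset.univ _ (fun i _ => quot_ker_ptHom A (q i))

/-- The quotient by `I' * ptIdeal q A` is finite projective if the quotient by `I'` is. -/
theorem quot_mul_ptIdeal (hC : IsCurveChart k B₀ B₁ B₀₁ x y e) (I' : Ideal (A ⊗[k] B₀))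
    [Module.Finite A ((A ⊗[k] B₀) ⧸ I')] [Module.Projective A ((A ⊗[k] B₀) ⧸ I')]
    {m : ℕ} (q : Fin m → (B₀ →ₐ[k] k)) :
    Module.Finite A ((A ⊗[k] B₀) ⧸ (I' * ptIdeal q A)) ∧
      Module.Projective A ((A ⊗[k] B₀) ⧸ (I' * ptIdeal q A)) := by
  obtain ⟨h1, h2⟩ := quot_ptIdeal A hC q
  exact hilb_quot_mul A hC I' (ptIdeal q A)

/-- **COV3-DATUM for `J = I' * ptIdeal q A`.** -/
theorem exists_datum_mul_ptIdeal (hC : IsCurveChart k B₀ B₁ B₀₁ x y e) (n : ℕ)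
    (I' : Ideal (A ⊗[k] B₀)) [Module.Finite A ((A ⊗[k] B₀) ⧸ I')]
    [Module.Projective A ((A ⊗[k] B₀) ⧸ I')] {m : ℕ} (q : Fin m → (B₀ →ₐ[k] k)) :
    ∃ D : CurveGD k B₀ B₁ B₀₁ A, D.Rigidifiable e ∧ ∃ s ∈ sec x n D, GenModY y D s.2 ∧
      Submodule.span (A ⊗[k] B₀) {s.1} =
        (I' * ptIdeal q A) • (⊤ : Submodule (A ⊗[k] B₀) D.N₀) := by
  obtain ⟨h1, h2⟩ := quot_mul_ptIdeal A hC I' q
  exact exists_datum_of_ideal A hC n (I' * ptIdeal q A)

/-- **COV3-DATUM for a chart ideal.** -/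
theorem exists_datum_of_isChart (hC : IsCurveChart k B₀ B₁ B₀₁ x y e) (n : ℕ) {g : ℕ}
    (β : Fin g → B₀) {I' : Ideal (A ⊗[k] B₀)} (hI' : H491.IsChart β I') {m : ℕ}
    (q : Fin m → (B₀ →ₐ[k] k)) :
    ∃ D : CurveGD k B₀ B₁ B₀₁ A, D.Rigidifiable e ∧ ∃ s ∈ sec x n D, GenModY y D s.2 ∧
      Submodule.span (A ⊗[k] B₀) {s.1} =
        (I' * ptIdeal q A) • (⊤ : Submodule (A ⊗[k] B₀) D.N₀) := by
  haveI := hI'.isHilb.finite
  haveI := hI'.isHilb.projective
  exact exists_datum_mul_ptIdeal A hC n I' q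

/-- **COV3: the universal datum** over `Rβ`, for the chart index `i`. -/
theorem exists_univ_datum (hC : IsCurveChart k B₀ B₁ B₀₁ x y e) (i : ChartIndex k B₀) :
    ∃ D : CurveGD k B₀ B₁ B₀₁ (H491.Rβ k i.β), D.Rigidifiable e ∧ ∃ s ∈ sec x i.n D,
      GenModY y D s.2 ∧ Submodule.span (H491.Rβ k i.β ⊗[k] B₀) {s.1} =
        (H491.univIdeal (k := k) i.β * ptIdeal i.q (H491.Rβ k i.β)) •
          (⊤ : Submodule (H491.Rβ k i.β ⊗[k] B₀) D.N₀) :=
  exists_datum_of_isChart (H491.Rβ k i.β) hC i.n i.β (H491.isChart_univIdeal i.β) i.q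

/-- **COV3 over any base**: the datum with Hilbert coordinates `φ₀`, in the shape of
`PointCond.sect`. -/
theorem exists_datum_of_coord (hC : IsCurveChart k B₀ B₁ B₀₁ x y e) (i : ChartIndex k B₀)
    (φ₀ : H491.Rβ k i.β →ₐ[k] A) :
    ∃ D : CurveGD k B₀ B₁ B₀₁ A, D.Rigidifiable e ∧ ∃ s ∈ sec x i.n D,
      GenModY y D s.2 ∧ Submodule.span (A ⊗[k] B₀) {s.1} =
        ((H491.univIdeal (k := k) i.β).map (H491.bc B₀ φ₀) * ptIdeal i.q A) •
          (⊤ : Submodule (A ⊗[k] B₀) D.N₀) :=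
  exists_datum_of_isChart A hC i.n i.β ((H491.isChart_univIdeal i.β).map φ₀) i.q

end

end Fermat.Agent.S25.H325
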