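/-
S25 helper (helper325), pillar `Stmt.Def`, leaf E2: a morphism between invertible modules which
is locally surjective on sections is an isomorphism.  Sectionwise (uses helper626's toolkit).
-/
import Mathlib
import Fermat.Prelude.Def_AlgebraicGeometry_RelativePicardFunctor
import Fermat.Agent.S25.H626.LocalGen

set_option autoImplicit false

universe u

noncomputable section

open CategoryTheory AlgebraicGeometry TopologicalSpace Opposite

namespace Fermat.Agent.S25.H325

open Fermat.Agent.S25.H626

variable {Y : Scheme.{u}} {M N : Y.Modules}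

/-- A local generator restricts to a local generator. -/
theorem isLocalGenerator_res {U V : Y.Opens} (h : V ≤ U) {s : Γ(M, U)}
    (hs : IsLocalGenerator M U s) : IsLocalGenerator M V (res M h s) := by
  intro W hW
  have := hs W (hW.trans h)
  simpa only [res_res] using this

/-- If `ψ : M ⟶ N` is surjective on sections over `V`, and `M`, `N` have generators on
`U ≥ V`, then `ψ` is bijective on sections over every open `V' ≤ V`. -/
theorem bijective_app_of_surjective (ψ : M ⟶ N) {U : Y.Opens} {s : Γ(M, U)}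
    (hs : IsLocalGenerator M U s) {t : Γ(N, U)} (ht : IsLocalGenerator N U t)
    {V : Y.Opens} (hVU : V ≤ U) (hsurj : Function.Surjective (ψ.app V))
    (V' : Y.Opens) (hV' : V' ≤ V) : Function.Bijective (ψ.app V') := by
  -- `ψ s = a • t`
  obtain ⟨a, ha⟩ := (ht U le_rfl).2 (ψ.app U s)
  simp only [res_id] at ha
  -- a preimage of `t|_V`
  obtain ⟨m, hm⟩ := hsurj (res N hVU t)
  obtain ⟨b, hb⟩ := (hs V hVU).2 m
  simp only at hb
  have hψs : ∀ (W : Y.Opens) (hW : W ≤ U),
      ψ.app W (res M hW s) = resO hW a • res N hW t := by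
    intro W hW
    rw [app_res, ← ha, res_smul]
  have hba : b * resO hVU a = 1 := by
    apply (ht V hVU).1
    simp only
    rw [one_smul, mul_smul, ← hψs V hVU, ← Scheme.Modules.Hom.app_smul, hb, hm]
  have hba' : resO hV' b * resO (hV'.trans hVU) a = 1 := by
    have := congrArg (resO hV') hba
    rwa [resO_mul, resO_resO, resO_one] at this
  have hab' : resO (hV'.trans hVU) a * resO hV' b = 1 := by rw [mul_comm]; exact hba'
  have hsV' := hs V' (hV'.trans hVU)
  have htV' := ht V' (hV'.trans hVU)
  have key : ∀ c : Γ(Y, V'), ψ.app V' (c • res M (hV'.trans hVU) s) =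
      (c * resO (hV'.trans hVU) a) • res N (hV'.trans hVU) t := by
    intro c
    rw [Scheme.Modules.Hom.app_smul, hψs, mul_smul]
  constructor
  · intro x y hxy
    obtain ⟨c, rfl⟩ := hsV'.2 x
    obtain ⟨d, rfl⟩ := hsV'.2 y
    simp only at hxy ⊢
    rw [key, key] at hxy
    have h1 : c * resO (hV'.trans hVU) a = d * resO (hV'.trans hVU) a := htV'.1 hxy
    have h2 : c = d := by
      calc c = c * (resO (hV'.trans hVU) a * resO hV' b) := by rw [hab', mul_one]
        _ = (c * resO (hV'.trans hVU) a) * resO hV' b := by rw [mul_assoc]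
        _ = (d * resO (hV'.trans hVU) a) * resO hV' b := by rw [h1]
        _ = d * (resO (hV'.trans hVU) a * resO hV' b) := by rw [mul_assoc]
        _ = d := by rw [hab', mul_one]
    rw [h2]
  · intro y
    obtain ⟨d, rfl⟩ := htV'.2 y
    refine ⟨(d * resO hV' b) • res M (hV'.trans hVU) s, ?_⟩
    simp only
    rw [key, mul_assoc, hba', mul_one]

/-- **E2.** A morphism between modules with local generators (e.g. invertible modules) which is
surjective on sections over arbitrarily small neighbourhoods of every point is an isomorphism. -/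
theorem isIso_of_locally_surjective (hM : HasLocalGenerators M) (hN : HasLocalGenerators N)
    (ψ : M ⟶ N)
    (hψ : ∀ (y : Y) (W : Y.Opens), y ∈ W →
      ∃ W' : Y.Opens, y ∈ W' ∧ W' ≤ W ∧ Function.Surjective (ψ.app W')) :
    IsIso ψ := by
  -- the basis of opens over which `ψ` is bijective
  let ι : Type u := {V : Y.Opens // Function.Bijective (ψ.app V)}
  let B : ι → Y.Opens := fun V => V.1
  have hB : Opens.IsBasis (Set.range B) := by
    rw [Opens.isBasis_iff_nbhd]
    intro W y hy
    obtain ⟨U₁, hy₁, s, hs⟩ := hM y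
    obtain ⟨U₂, hy₂, t, ht⟩ := hN y
    obtain ⟨W', hyW', hW', hsurj⟩ := hψ y (W ⊓ (U₁ ⊓ U₂)) ⟨hy, hy₁, hy₂⟩
    have h₁ : U₁ ⊓ U₂ ≤ U₁ := inf_le_left
    have h₂ : U₁ ⊓ U₂ ≤ U₂ := inf_le_right
    have hbij := bijective_app_of_surjective ψ (isLocalGenerator_res h₁ hs)
      (isLocalGenerator_res h₂ ht) (hW'.trans inf_le_right) hsurj W' le_rfl
    exact ⟨W', ⟨⟨W', hbij⟩, rfl⟩, hyW', hW'.trans inf_le_left⟩
  let F : TopCat.Sheaf Ab.{u} Y := ⟨M.presheaf, M.isSheaf⟩
  let G : TopCat.Sheaf Ab.{u} Y := ⟨N.presheaf, N.isSheaf⟩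
  let φ : F ⟶ G := ⟨ψ.mapPresheaf⟩
  have hφ : IsIso φ := by
    refine TopCat.Sheaf.isIso_iff_isIso_basis (B := B) hB (fun V => ?_)
    exact (ConcreteCategory.isIso_iff_bijective (ψ.app V.1)).mpr V.2
  have h2 : IsIso ψ.mapPresheaf := by
    have := (TopCat.Sheaf.forget Ab.{u} Y).map_isIso φ
    exact this
  haveI : IsIso ((Scheme.Modules.toPresheaf Y).map ψ) := h2
  exact isIso_of_reflects_iso ψ (Scheme.Modules.toPresheaf Y)

/-- **E2** for the Prelude's invertible modules. -/
theorem isIso_of_isInvertible_of_locally_surjective (hM : Scheme.Modules.IsInvertible M)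
    (hN : Scheme.Modules.IsInvertible N) (ψ : M ⟶ N)
    (hψ : ∀ (y : Y) (W : Y.Opens), y ∈ W →
      ∃ W' : Y.Opens, y ∈ W' ∧ W' ≤ W ∧ Function.Surjective (ψ.app W')) :
    IsIso ψ :=
  isIso_of_locally_surjective (hasLocalGenerators_of_isInvertible hM)
    (hasLocalGenerators_of_isInvertible hN) ψ hψ

end Fermat.Agent.S25.H325

end
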